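import Fermat.Agent.S29.Interface
import Fermat.Agent.S54.Frob

set_option autoImplicit false

/-!
# GES task B1-Big : from a (possibly infinite) `𝔽_p[G_ℚ]`-module with E-S relation to an honest `ESDatum`  (abstract)

`ESBig N p` is `S29.ESDatum N p` without finiteness: every ELEMENT is fixed by an open subgroup.

`ESBig.exists_esDatum`: if the eigensystem `c` occurs in `K ⊗ B.V` then it occurs in `K ⊗ D.V` for an honest `ESDatum D`.

SKETCH.  `v = ∑ kᵢ ⊗ xᵢ` (finite; `TensorProduct.induction_on` or `TensorProduct.exists_finset`).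
* orbit finite: for `x : B.V` with level `L`, `ρ σ x` depends only on `σ|_L ∈ (L →ₐ[ℚ] ℚ̄)`, a finite type
  (if `σ|_L = τ|_L` then `τ⁻¹σ` fixes `L`, so `ρ σ x = ρ τ (ρ (τ⁻¹σ) x) = ρ τ x`) ⟹ `{ρ σ x}` is finite.
* `W := span_{𝔽_p} {ρ σ xᵢ}`: finitely generated, `ρ`-stable.
* `W` is `T ℓ`-stable for every prime `ℓ ∤ N p`: pick `(A, σ)` by `S54.exists_frob`; from `es`,
  `T ℓ = ρ σ + ℓ • ρ σ⁻¹` (multiply `es` on the right by `ρ σ⁻¹`).
* `D.V := W`, `D.ρ σ := (B.ρ σ).restrict _`, `D.T ℓ := (B.T ℓ).restrict _` if `ℓ` is a prime `∤ N p`, `0` otherwise.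
* `D.level`: `W` is a finite set (`Module.finite_of_finite (ZMod p)`); `L := ⨆ w ∈ W, L_w`
  (`IntermediateField.finiteDimensional_iSup_of_finset`).
* `comm, es, unram`: restriction (`LinearMap.ext`, `Subtype.ext`).
* `Occurs`: `j : K ⊗ W → K ⊗ V` (`W.subtype.baseChange K`) is injective (`Module.Flat.lTensor_preserves_injective_linearMap`,
  everything is free over the field `ZMod p`); `v = j v'` with `v' = ∑ kᵢ ⊗ ⟨xᵢ, _⟩`; `v' ≠ 0`; `j` intertwines
  `(D.T ℓ).baseChange K` and `(B.T ℓ).baseChange K`.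
-/

open scoped TensorProduct

namespace Fermat.Agent.GES

open Fermat.Agent.S29 (GQ ESDatum)

/-- `ESDatum` without finiteness. -/
structure ESBig (N p : ℕ) : Type 1 where
  V : Type
  [instAddCommGroup : AddCommGroup V]
  [instModule : Module (ZMod p) V]
  ρ : GQ →* Module.End (ZMod p) V
  level : ∀ x : V, ∃ L : IntermediateField ℚ (AlgebraicClosure ℚ), FiniteDimensional ℚ L ∧
    ∀ σ : GQ, (∀ y ∈ L, σ y = y) → ρ σ x = x
  T : ℕ → Module.End (ZMod p) V
  comm : ∀ (ℓ : ℕ) (σ : GQ), T ℓ * ρ σ = ρ σ * T ℓ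
  es : ∀ ℓ : ℕ, ℓ.Prime → ¬ ℓ ∣ N * p →
    ∀ A : ValuationSubring (AlgebraicClosure ℚ), A.LiesOverPrime ℓ →
      ∀ σ : GQ, A.IsFrobeniusAt σ ℓ → ρ σ * ρ σ - T ℓ * ρ σ + (ℓ : ZMod p) • 1 = 0
  unram : ∀ ℓ : ℕ, ℓ.Prime → ¬ ℓ ∣ N * p →
    ∀ A : ValuationSubring (AlgebraicClosure ℚ), A.LiesOverPrime ℓ →
      ∀ σ ∈ A.inertiaSubgroupIn ℚ, ρ σ = 1

attribute [instance] ESBig.instAddCommGroup ESBig.instModule

/-- the system of eigenvalues `c` occurs in `K ⊗ V`. -/
def ESBig.Occurs {N p : ℕ} (B : ESBig N p) {K : Type} [Field K] [Algebra (ZMod p) K]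
    (c : ℕ → K) : Prop :=
  ∃ v : K ⊗[ZMod p] B.V, v ≠ 0 ∧
    ∀ ℓ : ℕ, ℓ.Prime → ¬ ℓ ∣ N * p → (B.T ℓ).baseChange K v = c ℓ • v

section abstract

variable {F K V : Type*} [Field F] [Field K] [Algebra F K] [AddCommGroup V] [Module F V]

theorem big_range_mono {W₁ W₂ : Submodule F V} (h : W₁ ≤ W₂) :
    LinearMap.range (W₁.subtype.baseChange K) ≤ LinearMap.range (W₂.subtype.baseChange K) := by
  have h1 : W₁.subtype = W₂.subtype ∘ₗ Submodule.inclusion h := rfl
  rw [h1, LinearMap.baseChange_comp]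
  exact LinearMap.range_comp_le_range _ _

theorem big_exists_finset (v : K ⊗[F] V) :
    ∃ S : Finset V, v ∈ LinearMap.range ((Submodule.span F (S : Set V)).subtype.baseChange K) := by
  classical
  induction v using TensorProduct.induction_on with
  | zero => exact ⟨∅, Submodule.zero_mem _⟩
  | tmul k x =>
    refine ⟨{x}, k ⊗ₜ ⟨x, Submodule.subset_span (by simp)⟩, ?_⟩
    rw [LinearMap.baseChange_tmul]
    rfl
  | add a b ha hb =>
    obtain ⟨S, hS⟩ := ha
    obtain ⟨S', hS'⟩ := hb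
    refine ⟨S ∪ S', Submodule.add_mem _ ?_ ?_⟩
    · exact big_range_mono (Submodule.span_mono (by simp)) hS
    · exact big_range_mono (Submodule.span_mono (by simp)) hS'

theorem big_baseChange_injective (W : Submodule F V) :
    Function.Injective (W.subtype.baseChange K) := by
  rw [LinearMap.baseChange_eq_ltensor]
  exact Module.Flat.lTensor_preserves_injective_linearMap (M := K) W.subtype
    Subtype.val_injective

theorem big_baseChange_restrict (W : Submodule F V) (f : Module.End F V)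
    (hf : ∀ x ∈ W, f x ∈ W) (x : K ⊗[F] W) :
    W.subtype.baseChange K ((f.restrict hf).baseChange K x) =
      f.baseChange K (W.subtype.baseChange K x) := by
  have h1 : W.subtype ∘ₗ f.restrict hf = f ∘ₗ W.subtype := rfl
  rw [← LinearMap.comp_apply, ← LinearMap.baseChange_comp, h1, LinearMap.baseChange_comp,
    LinearMap.comp_apply]

end abstract

/-- the orbit of a smooth vector is finite. -/
theorem big_orbit_finite {V : Type*} [AddCommGroup V] {F : Type*} [Field F] [Module F V]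
    (ρ : GQ →* Module.End F V) (x : V) (L : IntermediateField ℚ (AlgebraicClosure ℚ))
    [FiniteDimensional ℚ L] (hL : ∀ σ : GQ, (∀ y ∈ L, σ y = y) → ρ σ x = x) :
    (Set.range fun σ : GQ => ρ σ x).Finite := by
  let r : GQ → (L →ₐ[ℚ] AlgebraicClosure ℚ) := fun σ => (σ : _ →ₐ[ℚ] _).comp L.val
  have hfac : Function.FactorsThrough (fun σ : GQ => ρ σ x) r := by
    intro σ τ h
    have h1 : ∀ y ∈ L, (τ⁻¹ * σ) y = y := by
      intro y hy
      have h2 : σ y = τ y := congrArg (fun f => f ⟨y, hy⟩) h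
      rw [AlgEquiv.mul_apply, h2]
      exact τ.symm_apply_apply y
    have h3 := hL _ h1
    show ρ σ x = ρ τ x
    have h4 : σ = τ * (τ⁻¹ * σ) := by group
    rw [h4, map_mul, Module.End.mul_apply, h3]
  refine (Set.finite_range (Function.extend r (fun σ : GQ => ρ σ x) fun _ => 0)).subset ?_
  rintro _ ⟨σ, rfl⟩
  exact ⟨r σ, hfac.extend_apply _ σ⟩

theorem ESBig.exists_esDatum {N p : ℕ} [Fact p.Prime] (B : ESBig N p) {K : Type} [Field K]
    [Algebra (ZMod p) K] (c : ℕ → K) (h : B.Occurs c) : ∃ D : ESDatum N p, D.Occurs c := by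
  classical
  obtain ⟨v, hv0, hv⟩ := h
  obtain ⟨S, hS⟩ := big_exists_finset v
  -- the Galois orbit of `S`
  let O : Set B.V := ⋃ x ∈ S, Set.range fun σ : GQ => B.ρ σ x
  have hOfin : O.Finite := by
    refine Set.Finite.biUnion S.finite_toSet fun x _ => ?_
    obtain ⟨L, hL, hLx⟩ := B.level x
    exact big_orbit_finite B.ρ x L hLx
  let W : Submodule (ZMod p) B.V := Submodule.span (ZMod p) O
  have hSW : Submodule.span (ZMod p) (S : Set B.V) ≤ W := by
    refine Submodule.span_mono fun x hx => ?_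
    refine Set.mem_biUnion hx ⟨1, ?_⟩
    simp
  have hρ : ∀ (σ : GQ), ∀ x ∈ W, B.ρ σ x ∈ W := by
    intro σ x hx
    have : W.map (B.ρ σ) ≤ W := by
      rw [Submodule.map_span_le]
      intro y hy
      obtain ⟨x, hx, τ, rfl⟩ := Set.mem_iUnion₂.1 hy
      refine Submodule.subset_span (Set.mem_biUnion hx ⟨σ * τ, ?_⟩)
      simp [map_mul]
    exact this ⟨x, hx, rfl⟩
  have hT : ∀ ℓ : ℕ, ℓ.Prime ∧ ¬ ℓ ∣ N * p → ∀ x ∈ W, B.T ℓ x ∈ W := by
    rintro ℓ ⟨hℓ, hℓN⟩ x hx
    obtain ⟨A, σ, hA, hσ⟩ := Fermat.Agent.S54.exists_frob ℓ hℓ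
    have h1 := B.es ℓ hℓ hℓN A hA σ hσ
    have h2 : B.ρ σ * B.ρ σ⁻¹ = 1 := by rw [← map_mul, mul_inv_cancel, map_one]
    have h3 : B.T ℓ = B.ρ σ + (ℓ : ZMod p) • B.ρ σ⁻¹ := by
      have h4 := congrArg (· * B.ρ σ⁻¹) h1
      simp only [add_mul, sub_mul, mul_assoc, h2, mul_one, zero_mul, smul_mul_assoc,
        one_mul] at h4
      rw [← sub_eq_zero, ← neg_eq_zero, ← h4]
      abel
    rw [h3]
    exact W.add_mem (hρ σ x hx) (W.smul_mem _ (hρ σ⁻¹ x hx))
  haveI hWfin : Module.Finite (ZMod p) W :=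
    Module.Finite.iff_fg.2 (Submodule.fg_span hOfin)
  haveI : Finite W := Module.finite_of_finite (ZMod p)
  let ρW : GQ →* Module.End (ZMod p) W :=
    { toFun := fun σ => (B.ρ σ).restrict (hρ σ)
      map_one' := by
        refine LinearMap.ext fun x => Subtype.ext ?_
        simp
      map_mul' := fun σ τ => by
        refine LinearMap.ext fun x => Subtype.ext ?_
        simp [map_mul] }
  have hρW : ∀ σ (x : W), ((ρW σ x : W) : B.V) = B.ρ σ x := fun σ x => rfl
  let TW : ℕ → Module.End (ZMod p) W := fun ℓ =>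
    if h : ℓ.Prime ∧ ¬ ℓ ∣ N * p then (B.T ℓ).restrict (hT ℓ h) else 0
  have hTW : ∀ ℓ (h : ℓ.Prime ∧ ¬ ℓ ∣ N * p), TW ℓ = (B.T ℓ).restrict (hT ℓ h) :=
    fun ℓ h => dif_pos h
  have hTW' : ∀ ℓ (h : ℓ.Prime ∧ ¬ ℓ ∣ N * p) (x : W), ((TW ℓ x : W) : B.V) = B.T ℓ x := by
    intro ℓ h x
    rw [hTW ℓ h]
    rfl
  let D : ESDatum N p :=
    { V := W
      ρ := ρW
      level := by
        choose L hL hLx using B.level
        refine ⟨⨆ w : W, L w, ?_, fun σ hσ => ?_⟩
        · haveI := fun w : W => hL w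
          exact IntermediateField.finiteDimensional_iSup_of_finite
        · refine LinearMap.ext fun x => Subtype.ext ?_
          rw [hρW]
          exact hLx x σ fun y hy => hσ y ((le_iSup (fun w : W => L w) x) hy)
      T := TW
      comm := fun ℓ σ => by
        by_cases h : ℓ.Prime ∧ ¬ ℓ ∣ N * p
        · refine LinearMap.ext fun x => Subtype.ext ?_
          rw [Module.End.mul_apply, Module.End.mul_apply, hTW' ℓ h, hρW, hρW, hTW' ℓ h]
          exact congrArg (fun f => f (x : B.V)) (B.comm ℓ σ)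
        · have : TW ℓ = 0 := dif_neg h
          rw [this, zero_mul, mul_zero]
      es := fun ℓ hℓ hℓN A hA σ hσ => by
        refine LinearMap.ext fun x => Subtype.ext ?_
        have h1 := congrArg (fun f => f (x : B.V)) (B.es ℓ hℓ hℓN A hA σ hσ)
        simp only [LinearMap.add_apply, LinearMap.sub_apply, Module.End.mul_apply,
          LinearMap.smul_apply, Module.End.one_apply, LinearMap.zero_apply] at h1 ⊢
        simp only [Submodule.coe_add, Submodule.coe_sub, Submodule.coe_smul, hρW,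
          hTW' ℓ ⟨hℓ, hℓN⟩, Submodule.coe_zero]
        exact h1
      unram := fun ℓ hℓ hℓN A hA σ hσ => by
        refine LinearMap.ext fun x => Subtype.ext ?_
        rw [hρW, B.unram ℓ hℓ hℓN A hA σ hσ]
        rfl }
  refine ⟨D, ?_⟩
  obtain ⟨v', hv'⟩ := big_range_mono (K := K) hSW hS
  have main : ∃ w : K ⊗[ZMod p] W, w ≠ 0 ∧
      ∀ ℓ : ℕ, ℓ.Prime → ¬ ℓ ∣ N * p → (TW ℓ).baseChange K w = c ℓ • w := by
    refine ⟨v', ?_, fun ℓ hℓ hℓN => ?_⟩
    · rintro rfl
      rw [map_zero] at hv'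
      exact hv0 hv'.symm
    · apply big_baseChange_injective (K := K) W
      rw [hTW ℓ ⟨hℓ, hℓN⟩, big_baseChange_restrict, hv', hv ℓ hℓ hℓN, map_smul, hv']
  exact main

end Fermat.Agent.GES
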