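import Mathlib
import Fermat.Prelude.Def_ModularCurve_X0
import Fermat.Prelude.Def_ModularCurve_LaurentCoeff

set_option autoImplicit false

/-!
# GES task I0-FrobSeries : `x(q)^ℓ = x^{(ℓ)}(q^ℓ)` for Laurent series in characteristic `ℓ`  (abstract)

SKETCH.  `LaurentSeries k` has characteristic `ℓ` (`(ℓ : LaurentSeries k) = C (ℓ : k) = 0`), so `x ↦ x ^ ℓ` is additive
(`add_pow_char`/`frobenius`).  Fix `n : ℤ` and compare the coefficients at `n`.  Write `x = y + z` where `y` is the truncation
of `x` to exponents `< B` (a FINITE sum of `HahnSeries.single`, since the support is bounded below: induct, or use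
`x = single (-d) 1 * ofPowerSeries p` and `PowerSeries.trunc`) and `z` has all exponents `≥ B`, with `ℓ B > n`.  Both sides are additive in `x`;
both vanish at `n` on `z` (order of `z ^ ℓ` is `≥ ℓ B`); on `single a r` both are `single (ℓ a) (r ^ ℓ)`
(`HahnSeries.single_pow`, `qExpand_single`, `coeffMap_single`).
Alternative: reduce to power series (`x = single (-d) 1 * ofPowerSeries ℤ k p`) and prove `p ^ ℓ = ...` by
`PowerSeries.trunc`/`Polynomial.expand_char`/`Polynomial.map_frobenius_expand`.
-/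

namespace Fermat.Agent.GES

open ModularCurve

theorem frobSeries_aux {k : Type*} [CommRing k] (ℓ : ℕ) [NeZero ℓ] (φ : k →+* k)
    (P : PowerSeries k) :
    qExpand k ℓ (coeffMap φ (HahnSeries.ofPowerSeries ℤ k P)) =
      HahnSeries.ofPowerSeries ℤ k (PowerSeries.map φ (PowerSeries.expand ℓ (NeZero.ne ℓ) P)) := by
  ext n
  by_cases hd : (ℓ : ℤ) ∣ n
  · obtain ⟨m, rfl⟩ := hd
    rw [qExpand_coeff_mul, coeffMap_coeff]
    rcases lt_or_ge m 0 with hm | hm
    · have h1 : (ℓ : ℤ) * m < 0 :=
        mul_neg_of_pos_of_neg (by exact_mod_cast Nat.pos_of_ne_zero (NeZero.ne ℓ)) hm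
      rw [PowerSeries.coeff_coe, PowerSeries.coeff_coe, if_pos hm, if_pos h1, map_zero]
    · lift m to ℕ using hm
      rw [← Nat.cast_mul, LaurentSeries.coeff_coe_powerSeries, LaurentSeries.coeff_coe_powerSeries,
        PowerSeries.coeff_map, PowerSeries.coeff_expand_mul]
  · rw [qExpand_coeff_of_not_dvd _ _ hd, PowerSeries.coeff_coe]
    split_ifs with h
    · rfl
    · rw [PowerSeries.coeff_map, PowerSeries.coeff_expand_of_not_dvd, map_zero]
      rwa [← Int.natCast_dvd]

theorem pow_char_eq {k : Type*} [CommRing k] (ℓ : ℕ) [NeZero ℓ] [Fact ℓ.Prime] [CharP k ℓ]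
    (x : LaurentSeries k) : x ^ ℓ = qExpand k ℓ (coeffMap (frobenius k ℓ) x) := by
  conv_lhs => rw [← LaurentSeries.single_order_mul_powerSeriesPart x]
  conv_rhs => rw [← LaurentSeries.single_order_mul_powerSeriesPart x]
  rw [map_mul, map_mul, frobSeries_aux, mul_pow, coeffMap_single, qExpand_single,
    HahnSeries.single_pow, map_one, one_pow, ← map_pow]
  have h1 : x.powerSeriesPart ^ ℓ = PowerSeries.map (frobenius k ℓ)
      (PowerSeries.expand ℓ (NeZero.ne ℓ) x.powerSeriesPart) :=
    (MvPowerSeries.map_frobenius_expand ℓ (NeZero.ne ℓ)).symm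
  rw [h1, nsmul_eq_mul]

end Fermat.Agent.GES
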