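import Fermat.Agent.GES.RedGal

set_option autoImplicit false
set_option synthInstance.maxHeartbeats 400000

/-!
# GES task I1-IntSmall : calculus of `IntA` (coefficients in `A`) and `SmallA` (coefficients in `𝔪_A`)

Use S18/Red.lean (RD1): `exists_incA_eq`, `intA_incA`, `incA_injective`, `smallA_incA_iff`: `x` is `IntA` iff `x = incA A y`, and then
`SmallA A x ↔ redA A y = 0`; `incA A`, `redA A` are ring homs and `LaurentSeries (kA A)` is a field.
(Or directly: `HahnSeries.coeff_mul` is a finite sum; `S54.nonunits_add`, `S54.nonunits_mul_mem`.)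
-/

noncomputable section

namespace Fermat.Agent.GES

open ModularCurve
open Fermat.Agent.S24 (Kb)
open Fermat.Agent.S18 (kA IntA SmallA incA redA)

local notation "GQ'" => (AlgebraicClosure ℚ ≃ₐ[ℚ] AlgebraicClosure ℚ)

variable {A : ValuationSubring Kb} {x y : LaurentSeries Kb}

theorem IntA.one : IntA A 1 := by
  rw [← map_one (incA A)]
  exact S18.intA_incA A _

theorem IntA.mul (hx : IntA A x) (hy : IntA A y) : IntA A (x * y) := by
  obtain ⟨x', rfl⟩ := S18.exists_incA_eq hx
  obtain ⟨y', rfl⟩ := S18.exists_incA_eq hy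
  rw [← map_mul]
  exact S18.intA_incA A _

theorem IntA.add (hx : IntA A x) (hy : IntA A y) : IntA A (x + y) := by
  intro n
  rw [HahnSeries.coeff_add]
  exact A.add_mem _ _ (hx n) (hy n)

theorem IntA.sub (hx : IntA A x) (hy : IntA A y) : IntA A (x - y) := by
  intro n
  rw [HahnSeries.coeff_sub]
  exact A.sub_mem (hx n) (hy n)

theorem IntA.pow (hx : IntA A x) (n : ℕ) : IntA A (x ^ n) := by
  obtain ⟨x', rfl⟩ := S18.exists_incA_eq hx
  rw [← map_pow]
  exact S18.intA_incA A _

theorem SmallA.intA (hx : SmallA A x) : IntA A x := by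
  exact fun n => ValuationSubring.nonunits_subset (hx n)

theorem SmallA.add (hx : SmallA A x) (hy : SmallA A y) : SmallA A (x + y) := by
  obtain ⟨x', rfl⟩ := S18.exists_incA_eq (SmallA.intA hx)
  obtain ⟨y', rfl⟩ := S18.exists_incA_eq (SmallA.intA hy)
  rw [S18.smallA_incA_iff] at hx hy
  rw [← map_add, S18.smallA_incA_iff, map_add, hx, hy, add_zero]

theorem SmallA.sub (hx : SmallA A x) (hy : SmallA A y) : SmallA A (x - y) := by
  obtain ⟨x', rfl⟩ := S18.exists_incA_eq (SmallA.intA hx)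
  obtain ⟨y', rfl⟩ := S18.exists_incA_eq (SmallA.intA hy)
  rw [S18.smallA_incA_iff] at hx hy
  rw [← map_sub, S18.smallA_incA_iff, map_sub, hx, hy, sub_zero]

theorem SmallA.mul_left (hx : SmallA A x) (hy : IntA A y) : SmallA A (y * x) := by
  obtain ⟨x', rfl⟩ := S18.exists_incA_eq (SmallA.intA hx)
  obtain ⟨y', rfl⟩ := S18.exists_incA_eq hy
  rw [S18.smallA_incA_iff] at hx
  rw [← map_mul, S18.smallA_incA_iff, map_mul, hx, mul_zero]

theorem SmallA.mul_right (hx : SmallA A x) (hy : IntA A y) : SmallA A (x * y) := by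
  rw [mul_comm]
  exact SmallA.mul_left hx hy

/-- `k((q))` is a domain. -/
theorem not_smallA_mul (hx : IntA A x) (hy : IntA A y) (hx' : ¬ SmallA A x) (hy' : ¬ SmallA A y) :
    ¬ SmallA A (x * y) := by
  obtain ⟨x', rfl⟩ := S18.exists_incA_eq hx
  obtain ⟨y', rfl⟩ := S18.exists_incA_eq hy
  rw [S18.smallA_incA_iff] at hx' hy'
  rw [← map_mul, S18.smallA_incA_iff, map_mul]
  exact mul_ne_zero hx' hy'

theorem not_smallA_pow (hx : IntA A x) (hx' : ¬ SmallA A x) (n : ℕ) : ¬ SmallA A (x ^ n) := by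
  obtain ⟨x', rfl⟩ := S18.exists_incA_eq hx
  rw [S18.smallA_incA_iff] at hx'
  rw [← map_pow, S18.smallA_incA_iff, map_pow]
  exact pow_ne_zero n hx'

theorem not_smallA_of_sub (h : SmallA A (x - y)) (hy' : ¬ SmallA A y) : ¬ SmallA A x := by
  intro hx
  apply hy'
  have := SmallA.sub hx h
  rwa [sub_sub_cancel] at this

theorem not_smallA_ne_zero (hx' : ¬ SmallA A x) : x ≠ 0 := by
  rintro rfl
  apply hx'
  rw [← map_zero (incA A), S18.smallA_incA_iff, map_zero]

theorem intA_qExpand_iff (n : ℕ) [NeZero n] : IntA A (qExpand Kb n x) ↔ IntA A x := by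
  constructor
  · intro h k
    rw [← qExpand_coeff_mul (N := n)]
    exact h _
  · intro h k
    by_cases hk : (n : ℤ) ∣ k
    · obtain ⟨k', rfl⟩ := hk
      rw [qExpand_coeff_mul]
      exact h _
    · rw [qExpand_coeff_of_not_dvd _ _ hk]
      exact A.zero_mem

theorem smallA_qExpand_iff (n : ℕ) [NeZero n] : SmallA A (qExpand Kb n x) ↔ SmallA A x := by
  constructor
  · intro h k
    rw [← qExpand_coeff_mul (N := n)]
    exact h _
  · intro h k
    by_cases hk : (n : ℤ) ∣ k
    · obtain ⟨k', rfl⟩ := hk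
      rw [qExpand_coeff_mul]
      exact h _
    · rw [qExpand_coeff_of_not_dvd _ _ hk, ValuationSubring.mem_nonunits_iff, map_zero]
      exact zero_lt_one

theorem intA_coeffMap {σ : GQ'} (hσ : σ ∈ A.decompositionSubgroup ℚ) (hx : IntA A x) :
    IntA A (coeffMap (σ : Kb →+* Kb) x) := by
  obtain ⟨s, hs⟩ := exists_sigA A hσ
  intro n
  rw [coeffMap_coeff]
  have := (s ⟨x.coeff n, hx n⟩).2
  rw [hs] at this
  exact this

theorem smallA_coeffMap_iff {σ : GQ'} (hσ : σ ∈ A.decompositionSubgroup ℚ) :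
    SmallA A (coeffMap (σ : Kb →+* Kb) x) ↔ SmallA A x := by
  have key : ∀ {τ : GQ'}, τ ∈ A.decompositionSubgroup ℚ → ∀ c : Kb, c ∈ A.nonunits →
      τ c ∈ A.nonunits := by
    intro τ hτ c hc
    obtain ⟨s, hs⟩ := exists_sigA A hτ
    have hcA : c ∈ A := ValuationSubring.nonunits_subset hc
    have h1 : IsLocalRing.residue A ⟨c, hcA⟩ = 0 := by
      rw [IsLocalRing.residue_eq_zero_iff, ← ValuationSubring.coe_mem_nonunits_iff]
      exact hc
    rw [← residue_sigA_eq_zero_iff A hτ s hs, IsLocalRing.residue_eq_zero_iff,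
      ← ValuationSubring.coe_mem_nonunits_iff, hs] at h1
    exact h1
  constructor
  · intro h n
    have h1 := key ((A.decompositionSubgroup ℚ).inv_mem hσ) _ (h n)
    rw [coeffMap_coeff] at h1
    have h2 : σ⁻¹ ((σ : Kb →+* Kb) (x.coeff n)) = x.coeff n := σ.symm_apply_apply _
    rw [h2] at h1
    exact h1
  · intro h n
    rw [coeffMap_coeff]
    exact key hσ _ (h n)

end Fermat.Agent.GES
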