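import Fermat.Agent.GES.Star
import Fermat.Agent.GES.FrobSeries
import Fermat.Agent.GES.IntSmall

set_option autoImplicit false
set_option synthInstance.maxHeartbeats 400000

/-!
# GES tasks C1-CongFrob, C2-CongInertia : the congruences modulo `𝔪_A`

## C1 `cong_frob`:  `T_ℓ (σ a) ≡ a^ℓ · σ² a  (mod 𝔪_A)` for a Frobenius lift `σ` at `A | ℓ`, `a ∈ F_N ∩ A((q))`.

Take `y : LaurentSeries A` with `incA A y = a` (`S18.exists_incA_eq`), `s : A →+* A` induced by `σ` (`exists_sigA`),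
`Y = coeffMap s y` (so `incA A Y = coeffMap σ a = (galF N σ a).1`, by `coeffMap_coeffMap` + `coeffMap_congr`),
`ζ : Kbˣ` a primitive `ℓ`-th root of unity (`IsAlgClosed`/`HasEnoughRootsOfUnity`, char 0; lift to `Kbˣ`), `z : Aˣ` with `(z : Kb) = ζ`
(`exists_unit_of_pow_eq_one`).  By `star` (for `f = galF N σ a`), `coeffMap_qExpand`, `S28.coeffMap_twist`:
  `qExpand ℓ (T_ℓ (σ a)) = incA A Z`,  `Z = qExpand ℓ (qExpand ℓ Y) * ∏ i, twist (z^i) Y`.
So `T_ℓ(σ a)` is `IntA` (`intA_qExpand_iff`, `S18.intA_incA`); write it `incA A t`; `qExpand ℓ t = Z` (`incA_injective`).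
Reduce: `redA (twist (z^i) Y) = twist 1 (redA Y) = redA Y` (`residue_eq_one_of_pow_eq_one`, `S28.coeffMap_twist`, `twist_one'`),
`redA Y = coeffMap (frobenius) (redA y)` (`residue_sigA_frob`), and `pow_char_eq` twice
(`CharP (kA A) ℓ` is `S29.FDFixed.charP_residue`):
  `qExpand ℓ (redA t) = qExpand ℓ (qExpand ℓ (Fr ȳ)) * (Fr ȳ)^ℓ = qExpand ℓ (ȳ^ℓ) * qExpand ℓ (Fr (Fr ȳ)) = qExpand ℓ (redA (y^ℓ * coeffMap s Y))`.
`qExpand_injective`, `S18.smallA_incA_iff`.

## C2 `cong_inertia`:  `τ a ≡ a` for `τ` in the inertia group (`residue_sigA_inertia`).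
-/

noncomputable section

namespace Fermat.Agent.GES

open AlgebraicCurve ModularCurve
open Fermat.Agent.S24 (Kb FN iotaK)
open Fermat.Agent.S18 (kA IntA SmallA incA redA)

/-- `incA` intertwines `s` and `σ`. -/
theorem cong_incA_coeffMap (A : ValuationSubring Kb) (σ : GQ) (s : A →+* A)
    (hs : ∀ a : A, ((s a : A) : Kb) = σ (a : Kb)) (w : LaurentSeries A) :
    incA A (coeffMap s w) = coeffMap (σ : Kb →+* Kb) (incA A w) := by
  ext n
  simp only [coeffMap_coeff]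
  exact hs _

theorem cong_exists_zeta (ℓ : ℕ) (hℓ : ℓ.Prime) : ∃ ζ : Kbˣ, IsPrimitiveRoot ζ ℓ := by
  have : NeZero ℓ := ⟨hℓ.ne_zero⟩
  have : NeZero (ℓ : Kb) := ⟨by exact_mod_cast hℓ.ne_zero⟩
  obtain ⟨ζ0, hζ0⟩ := HasEnoughRootsOfUnity.exists_primitiveRoot Kb ℓ
  refine ⟨(hζ0.isUnit hℓ.ne_zero).unit, ?_⟩
  rw [← IsPrimitiveRoot.coe_units_iff]
  exact hζ0

theorem cong_frob (N ℓ : ℕ) [NeZero N] [NeZero ℓ] (hℓ : ℓ.Prime) (hℓN : ¬ ℓ ∣ N)
    (A : ValuationSubring Kb) (hA : A.LiesOverPrime ℓ) (σ : GQ) (hσ : A.IsFrobeniusAt σ ℓ)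
    (a : FN N) (ha : IntA A a.1) :
    IntA A (heckeF N ℓ (galF N σ a)).1 ∧
      SmallA A ((heckeF N ℓ (galF N σ a)).1 - (a ^ ℓ * galF N σ (galF N σ a)).1) := by
  have hσd : σ ∈ A.decompositionSubgroup ℚ := hσ.mem_decompositionSubgroup
  obtain ⟨y, hy⟩ := S18.exists_incA_eq ha
  obtain ⟨s, hs⟩ := exists_sigA A hσd
  have hcomm := cong_incA_coeffMap A σ s hs
  set Y : LaurentSeries A := coeffMap s y with hYdef
  have hY : incA A Y = (galF N σ a : LaurentSeries Kb) := by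
    rw [coe_galF, hYdef, hcomm, hy]
  obtain ⟨ζ, hζ⟩ := cong_exists_zeta ℓ hℓ
  obtain ⟨z, hz⟩ := exists_unit_of_pow_eq_one A hℓ.ne_zero ζ hζ.pow_eq_one
  have hzζ : Units.map (A.subtype : A →* Kb) z = ζ := Units.ext hz
  have hstar := star N ℓ hℓ hℓN ζ hζ (galF N σ a)
  set T : LaurentSeries Kb := (heckeF N ℓ (galF N σ a) : LaurentSeries Kb) with hT
  set Z : LaurentSeries A := qExpand A ℓ (qExpand A ℓ Y) * ∏ i : Fin ℓ, S28.twist (z ^ (i : ℕ)) Y
    with hZ
  have hZinc : incA A Z = qExpand Kb ℓ T := by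
    rw [hstar, hZ, map_mul, map_prod, coeffMap_qExpand, coeffMap_qExpand, hY]
    congr 1
    refine Finset.prod_congr rfl fun i _ => ?_
    rw [S28.coeffMap_twist, map_pow, hY, hzζ]
  have hTint : IntA A T := by
    rw [← intA_qExpand_iff ℓ, ← hZinc]
    exact S18.intA_incA A Z
  refine ⟨hTint, ?_⟩
  obtain ⟨t, ht⟩ := S18.exists_incA_eq hTint
  have htZ : qExpand A ℓ t = Z := by
    apply S18.incA_injective A
    rw [coeffMap_qExpand, ht, hZinc]
  have hrhs : ((a ^ ℓ * galF N σ (galF N σ a) : FN N) : LaurentSeries Kb) =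
      incA A (y ^ ℓ * coeffMap s Y) := by
    rw [map_mul, map_pow, hcomm, hY, hy]
    rfl
  rw [hrhs, ← ht, ← map_sub, S18.smallA_incA_iff, map_sub, sub_eq_zero]
  have : Fact ℓ.Prime := ⟨hℓ⟩
  have : CharP (kA A) ℓ := S29.FDFixed.charP_residue A hℓ hA
  have hred : ∀ w : LaurentSeries A,
      redA A (coeffMap s w) = coeffMap (frobenius (kA A) ℓ) (redA A w) := by
    intro w
    ext n
    simp only [coeffMap_coeff]
    exact residue_sigA_frob A hσ s hs _
  apply qExpand_injective (R := kA A) ℓ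
  rw [← coeffMap_qExpand, htZ, hZ, map_mul, map_prod, coeffMap_qExpand, coeffMap_qExpand]
  have htw : ∀ i : Fin ℓ, redA A (S28.twist (z ^ (i : ℕ)) Y) = redA A Y := by
    intro i
    rw [S28.coeffMap_twist]
    have : Units.map (IsLocalRing.residue A : A →* kA A) (z ^ (i : ℕ)) = 1 := by
      apply Units.ext
      rw [Units.coe_map, Units.val_pow_eq_pow_val, Units.val_one]
      show IsLocalRing.residue A ((z : A) ^ (i : ℕ)) = 1
      rw [map_pow, residue_eq_one_of_pow_eq_one A hℓ hA (z : A) ?_, one_pow]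
      apply Subtype.ext
      have := congrArg Units.val hζ.pow_eq_one
      rw [Units.val_pow_eq_pow_val, ← hz] at this
      exact this
    rw [this, twist_one']
  rw [Finset.prod_congr rfl (fun i _ => htw i), Finset.prod_const, Finset.card_univ,
    Fintype.card_fin, map_mul, map_mul, map_pow, hred Y, pow_char_eq ℓ (redA A Y)]
  congr 1
  rw [hYdef, hred y, ← pow_char_eq ℓ (redA A y)]

theorem cong_inertia (N : ℕ) (A : ValuationSubring Kb) (τ : GQ) (hτ : τ ∈ A.inertiaSubgroupIn ℚ)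
    (a : FN N) (ha : IntA A a.1) :
    IntA A (galF N τ a).1 ∧ SmallA A ((galF N τ a).1 - a.1) := by
  have hτd := mem_decomposition_of_mem_inertia A hτ
  obtain ⟨y, hy⟩ := S18.exists_incA_eq ha
  obtain ⟨s, hs⟩ := exists_sigA A hτd
  have hcomm := cong_incA_coeffMap A τ s hs
  have h1 : (galF N τ a : LaurentSeries Kb) = incA A (coeffMap s y) := by
    rw [coe_galF, hcomm, hy]
  refine ⟨?_, ?_⟩
  · rw [h1]
    exact S18.intA_incA A _
  · rw [h1, ← hy, ← map_sub, S18.smallA_incA_iff, map_sub, sub_eq_zero]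
    ext n
    simp only [coeffMap_coeff]
    exact residue_sigA_inertia A hτ s hs _

end Fermat.Agent.GES
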