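import Fermat.Agent.GES.Kummer
import Fermat.Agent.S18.Interface
import Fermat.Agent.S28.Series
import Fermat.Prelude.Def_ModularCurve_HeckeOperator

set_option autoImplicit false

/-!
# GES: concrete definitions

* `FN N`  : the function field of `X₀(N)` over `ℚ̄` (inside `ℚ̄((q))`), from S24;
* `galF N σ` : the coefficientwise action of `σ ∈ G_ℚ` on `FN N` (Prelude `arithmeticRingAut`);
* `heckeF N ℓ f = Norm_{F_{Nℓ}/F_N} (f(q^ℓ))` : the multiplicative Hecke operator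
  (`F_N ⊆ F_{Nℓ}` is Prelude's `heckeAlphaBar`, `f ↦ f(q^ℓ)` is Prelude's `heckeBetaBar`).
-/

noncomputable section

namespace Fermat.Agent.GES

open AlgebraicCurve ModularCurve
open Fermat.Agent.S24 (Kb FN iotaK)

/-- the absolute Galois group of `ℚ`. -/
abbrev GQ : Type := AlgebraicClosure ℚ ≃ₐ[ℚ] AlgebraicClosure ℚ

/-- `V_m(N) = {f ∈ F_N^× : m ∣ div f} / m`-th powers `≅ J₀(N)[m]`. -/
abbrev VN (N m : ℕ) : Type := Vm Kb (FN N) m

/-- the subgroup `{f : m ∣ div f}` of `F_N^×`. -/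
abbrev DN (N m : ℕ) : Subgroup (FN N)ˣ := divBy Kb (FN N) m

/-! ### Galois -/

/-- the action of `σ` on `F_N` (coefficientwise). -/
def galF (N : ℕ) (σ : GQ) : FN N ≃+* FN N := arithmeticRingAut (modularFunctionFieldFull N) σ

@[simp] theorem coe_galF (N : ℕ) (σ : GQ) (f : FN N) :
    (galF N σ f : LaurentSeries Kb) = coeffMap (σ : Kb →+* Kb) (f : LaurentSeries Kb) := rfl

theorem galF_one (N : ℕ) (f : FN N) : galF N 1 f = f := by
  apply Subtype.ext
  rw [coe_galF]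
  ext k
  simp

theorem galF_mul (N : ℕ) (σ τ : GQ) (f : FN N) : galF N (σ * τ) f = galF N σ (galF N τ f) := by
  apply Subtype.ext
  rw [coe_galF, coe_galF, coe_galF]
  ext k
  simp

theorem galF_algebraMap (N : ℕ) (σ : GQ) (a : Kb) :
    galF N σ (algebraMap Kb (FN N) a) = algebraMap Kb (FN N) (σ a) :=
  arithmeticRingAut_algebraMap (modularFunctionFieldFull N) σ a

/-- the action of `σ` on `F_N^×`. -/
def galU (N : ℕ) (σ : GQ) : (FN N)ˣ →* (FN N)ˣ := Units.map ((galF N σ : FN N →+* FN N) : FN N →* FN N)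

@[simp] theorem coe_galU (N : ℕ) (σ : GQ) (f : (FN N)ˣ) :
    ((galU N σ f : (FN N)ˣ) : FN N) = galF N σ f := rfl

/-! ### Hecke -/

section Hecke

variable (N ℓ : ℕ) [NeZero N] [NeZero ℓ]

/-- `F_{Nℓ}` as an algebra over `F_N` (inclusion). -/
@[reducible] def algA : Algebra (FN N) (FN (N * ℓ)) := algebraAlong (heckeAlphaBar Kb N ℓ)

/-- the norm `F_{Nℓ} → F_N`. -/
def normA : FN (N * ℓ) →* FN N :=
  letI := algA N ℓ
  Algebra.norm (FN N)

/-- the multiplicative Hecke operator `f ↦ Norm (f(q^ℓ))`. -/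
def heckeF : FN N →* FN N :=
  (normA N ℓ).comp ((heckeBetaBar Kb N ℓ : FN N →+* FN (N * ℓ)) : FN N →* FN (N * ℓ))

theorem heckeF_apply (f : FN N) : heckeF N ℓ f = normA N ℓ (heckeBetaBar Kb N ℓ f) := rfl

/-- the multiplicative Hecke operator on units. -/
def heckeU : (FN N)ˣ →* (FN N)ˣ := Units.map (heckeF N ℓ)

@[simp] theorem coe_heckeU (f : (FN N)ˣ) : ((heckeU N ℓ f : (FN N)ˣ) : FN N) = heckeF N ℓ f := rfl

end Hecke

end Fermat.Agent.GES
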