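import Fermat.Agent.GES.Defs

set_option autoImplicit false

/-!
# GES task S1-Emb : the S24 embeddings `theta` at the cusp `∞`, restricted to `F_N ⊆ F_{Nℓ}`
-/

noncomputable section

open UpperHalfPlane ModularForm CongruenceSubgroup
open scoped MatrixGroups

namespace Fermat.Agent.GES

open AlgebraicCurve ModularCurve
open Fermat.Agent.S24

/-- the standard embedding `f(q) ↦ f(s^M)` of `F_M` in `ℂ((s))`, `s = q^{1/M}`. -/
def stdEmb (M : ℕ) [NeZero M] : FN M →+* LaurentSeries ℂ :=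
  (qExpand ℂ M).comp ((coeffMap iotaK).comp (algebraMap (FN M) (LaurentSeries Kb)))

theorem stdEmb_apply (M : ℕ) [NeZero M] (f : FN M) :
    stdEmb M f = qExpand ℂ M (coeffMap iotaK (f : LaurentSeries Kb)) := rfl

/-- `S24.theta_ext`, `theta_incl`, `cuspChart_onB`, `degree_actB_one`, `TInf_PhiB`. -/
theorem theta_one (M : ℕ) [NeZero M] : theta M (cuspChart M) 1 = stdEmb M := by
  apply theta_ext
  intro a
  rw [theta_incl, degree_actB_one]
  have h1 : (cuspChart M).onB (PhiB M a) =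
      TInf M ⟨(PhiB M a : ℍ → ℂ), Btil_le_perSub M (PhiB M a).2⟩ := rfl
  rw [h1, TInf_PhiB]
  rfl

theorem emb_coe_thetaIncl (N : ℕ) [NeZero N] (a : A0 N) :
    ((thetaIncl N a : FN N) : LaurentSeries Kb) = (a : LaurentSeries Kb) := rfl

theorem emb_coe_alpha (N ℓ : ℕ) [NeZero N] [NeZero ℓ] (x : FN N) :
    (((heckeAlphaBar Kb N ℓ).toRingHom x : FN (N * ℓ)) : LaurentSeries Kb) =
      (x : LaurentSeries Kb) :=
  coe_heckeAlphaBar N ℓ x

/-- For `g ∈ Γ₀(N)` the embedding `theta (Nℓ) ∞ g` is the standard one on `F_N`.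
Both sides are ring homs `FN N →+* ℂ((s))`; `S24.theta_ext N`, then `S24.phi_ringHom_ext N` reduce to constants
(`theta_const`) and to `Jser d`, `d ∣ N`: `heckeAlphaBar (thetaIncl N ⟨Jser d,_⟩) = thetaIncl (N*ℓ) ⟨Jser d,_⟩`,
`theta_incl`, `PhiB_Jser`, `act_jd_of_mem_Gamma0 (hd : d ∣ N) g hg : act g (jd d) = jd d`; compare with `g = 1`
(`theta_one`). -/
theorem theta_alpha (N ℓ : ℕ) [NeZero N] [NeZero ℓ] (g : SL(2, ℤ)) (hg : g ∈ Gamma0 N) (f : FN N) :
    theta (N * ℓ) (cuspChart (N * ℓ)) g (heckeAlphaBar Kb N ℓ f) =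
      stdEmb (N * ℓ) (heckeAlphaBar Kb N ℓ f) := by
  rw [← theta_one]
  have key : (theta (N * ℓ) (cuspChart (N * ℓ)) g).comp (heckeAlphaBar Kb N ℓ).toRingHom =
      (theta (N * ℓ) (cuspChart (N * ℓ)) 1).comp (heckeAlphaBar Kb N ℓ).toRingHom := by
    apply theta_ext N
    intro a
    have key2 : ((theta (N * ℓ) (cuspChart (N * ℓ)) g).comp
        (heckeAlphaBar Kb N ℓ).toRingHom).comp (thetaIncl N) =
        ((theta (N * ℓ) (cuspChart (N * ℓ)) 1).comp
        (heckeAlphaBar Kb N ℓ).toRingHom).comp (thetaIncl N) := by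
      apply phi_ringHom_ext N
      · intro c
        have h1 : thetaIncl N (algebraMap Kb (A0 N) c) = algebraMap Kb (FN N) c := rfl
        simp only [RingHom.comp_apply, h1]
        have h2 : (heckeAlphaBar Kb N ℓ).toRingHom (algebraMap Kb (FN N) c) =
            algebraMap Kb (FN (N * ℓ)) c := (heckeAlphaBar Kb N ℓ).commutes c
        rw [h2, theta_const, theta_const]
      · intro d hd
        have h1 : (heckeAlphaBar Kb N ℓ).toRingHom (thetaIncl N ⟨Jser d, Jser_mem_A0 hd⟩) =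
            thetaIncl (N * ℓ) ⟨Jser d, Jser_mem_A0 (hd.mul_right ℓ)⟩ := by
          apply Subtype.ext
          rw [emb_coe_alpha, emb_coe_thetaIncl, emb_coe_thetaIncl]
        simp only [RingHom.comp_apply, h1]
        rw [theta_incl, theta_incl, degree_actB_one]
        congr 1
        apply Subtype.ext
        rw [coe_actB, PhiB_Jser (N * ℓ) (hd.mul_right ℓ)]
        exact act_jd_of_mem_Gamma0 hd g hg
    exact congrArg (fun φ => φ a) key2
  exact congrArg (fun φ => φ f) key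

end Fermat.Agent.GES
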