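import Fermat.Agent.GES.Emb

set_option autoImplicit false

/-!
# GES task S3-EmbG0 : the conjugate `f(ℓ z) ↦ f(z/ℓ)`

`ℓ, N` coprime: choose `a b : ℤ` with `a ℓ - b N = 1`, `h = !![a, b; N, ℓ] ∈ Γ₀(N)`, `g = h⁻¹`.
For `d ∣ N`:  `act g (jd (ℓ d)) z = j (ℓ d · h z) = j (γ (d z / ℓ)) = j (d z / ℓ) = pre d 0 ℓ jFun z`
with `γ = !![ℓ a, d b; N / d, 1] ∈ SL(2,ℤ)`   (`S24.expandB_jFun_eq_of_coe`, `expandB_coe_smul`, `expandB_coe_ofComplex`).
Then `S24.TInf_pre_jFun` (`a := d, b := 0, δ := ℓ`, level `N ℓ`), `expandC_rootU_zero`, `S24.twist_one`: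
`TInf (Nℓ) (pre d 0 ℓ jFun) = qExpand (d * (N ℓ / ℓ)) jq = qExpand N (qExpand d jq)`.
Both sides of the claim are ring homs in `f`: `S24.theta_ext N`, `S24.phi_ringHom_ext N` reduce to constants and `Jser d`;
`heckeBetaBar (Jser d) = Jser (ℓ d)` (`qExpand_qExpand`, `S24.phi_Jser_of_ne`, `jqNModC`).
-/

noncomputable section

open UpperHalfPlane ModularForm CongruenceSubgroup
open scoped MatrixGroups

namespace Fermat.Agent.GES

open AlgebraicCurve ModularCurve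
open Fermat.Agent.S24

namespace EmbG0

/-- the key analytic identity `j (ℓ d · h z) = j (d z / ℓ)`. -/
theorem act_jd_eq_pre {N ℓ d : ℕ} (hℓ : 0 < ℓ) (hd0 : 0 < d) (e : ℕ) (hde : N = d * e)
    (a b : ℤ) (hab : a * ℓ - b * N = 1) (h : SL(2, ℤ))
    (h00 : h 0 0 = a) (h01 : h 0 1 = b) (h10 : h 1 0 = N) (h11 : h 1 1 = ℓ) :
    act h⁻¹ (jd (ℓ * d)) = pre d 0 ℓ jFun := by
  let γ : SL(2, ℤ) := ⟨!![ℓ * a, d * b; e, 1], by
    rw [Matrix.det_fin_two_of]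
    rw [hde] at hab
    push_cast at hab
    linarith⟩
  funext z
  rw [act_apply, inv_inv]
  unfold jd pre
  have hℓd : 0 < ℓ * d := Nat.mul_pos hℓ hd0
  set w' : ℍ := ofComplex ((((ℓ * d : ℕ) : ℂ) * ((h • z : ℍ) : ℂ) + (0 : ℕ)) / (1 : ℕ)) with hw'
  set w : ℍ := ofComplex (((d : ℂ) * z + (0 : ℕ)) / (ℓ : ℕ)) with hw
  have cw' : (w' : ℂ) = ((ℓ * d : ℕ) : ℂ) * ((h • z : ℍ) : ℂ) := by
    rw [hw', expandB_coe_ofComplex (ℓ * d) 0 1 hℓd one_pos]
    simp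
  have cw : (w : ℂ) = (d : ℂ) * z / ℓ := by
    rw [hw, expandB_coe_ofComplex d 0 ℓ hd0 hℓ]
    simp
  have hden := expandB_denom_ne h z
  apply expandB_jFun_eq_of_coe γ
  have g00 : γ 0 0 = ℓ * a := rfl
  have g01 : γ 0 1 = d * b := rfl
  have g10 : γ 1 0 = e := rfl
  have g11 : γ 1 1 = 1 := rfl
  rw [g00, g01, g10, g11, cw, cw', expandB_coe_smul, h00, h01, h10, h11]
  rw [h10, h11] at hden
  have hℓc : (ℓ : ℂ) ≠ 0 := by exact_mod_cast hℓ.ne'
  have hN : (N : ℂ) = d * e := by exact_mod_cast hde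
  push_cast at hden ⊢
  rw [hN] at hden ⊢
  have hden' : (d : ℂ) * z * e + ℓ ≠ 0 := by
    have : (d : ℂ) * z * e + ℓ = d * e * z + ℓ := by ring
    rw [this]; exact hden
  field_simp

end EmbG0

theorem exists_g0 (N ℓ : ℕ) [NeZero N] [NeZero ℓ] (h : Nat.Coprime ℓ N) :
    ∃ g : SL(2, ℤ), g ∈ Gamma0 N ∧ ∀ f : FN N,
      theta (N * ℓ) (cuspChart (N * ℓ)) g (heckeBetaBar Kb N ℓ f) =
        qExpand ℂ N (coeffMap iotaK (f : LaurentSeries Kb)) := by
  have hℓ : 0 < ℓ := Nat.pos_of_ne_zero (NeZero.ne ℓ)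
  have hN : 0 < N := Nat.pos_of_ne_zero (NeZero.ne N)
  obtain ⟨a, v, hav⟩ : IsCoprime (ℓ : ℤ) (N : ℤ) := Nat.isCoprime_iff_coprime.mpr h
  have hab : a * ℓ - (-v) * N = 1 := by linarith
  let hm : SL(2, ℤ) := ⟨!![a, -v; N, ℓ], by rw [Matrix.det_fin_two_of]; linarith⟩
  have hmG : hm ∈ Gamma0 N := by
    rw [Gamma0_mem]
    show (((N : ℤ) : ℤ) : ZMod N) = 0
    simp
  refine ⟨hm⁻¹, inv_mem hmG, ?_⟩
  set c := cuspChart (N * ℓ) with hc
  have key : (theta (N * ℓ) c hm⁻¹).comp ((heckeBetaBar Kb N ℓ : FN N →ₐ[Kb] FN (N * ℓ)) : FN N →+* FN (N * ℓ))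
      = stdEmb N := by
    apply theta_ext N
    intro x
    have h2 : (((theta (N * ℓ) c hm⁻¹).comp
        ((heckeBetaBar Kb N ℓ : FN N →ₐ[Kb] FN (N * ℓ)) : FN N →+* FN (N * ℓ))).comp (thetaIncl N))
        = (stdEmb N).comp (thetaIncl N) := by
      apply phi_ringHom_ext N
      · intro r
        simp only [RingHom.comp_apply]
        have e1 : thetaIncl N (algebraMap Kb (A0 N) r) = algebraMap Kb (FN N) r := rfl
        rw [e1]
        have e2 : ((heckeBetaBar Kb N ℓ : FN N →ₐ[Kb] FN (N * ℓ)) : FN N →+* FN (N * ℓ))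
            (algebraMap Kb (FN N) r) = algebraMap Kb (FN (N * ℓ)) r :=
          (heckeBetaBar Kb N ℓ).commutes r
        rw [e2, theta_const, stdEmb_apply]
        have e3 : ((algebraMap Kb (FN N) r : FN N) : LaurentSeries Kb)
            = algebraMap Kb (LaurentSeries Kb) r := rfl
        rw [e3, algebraMap_laurentSeries_eq_single, coeffMap_single, qExpand_single, mul_zero]
        rfl
      · intro d hd
        obtain ⟨e, hde⟩ := hd
        have hd0 : 0 < d := Nat.pos_of_ne_zero (by rintro rfl; simp at hde; omega)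
        have : NeZero d := ⟨hd0.ne'⟩
        have : NeZero (ℓ * d) := ⟨(Nat.mul_pos hℓ hd0).ne'⟩
        have hd' : ℓ * d ∣ N * ℓ := ⟨e, by rw [hde]; ring⟩
        simp only [RingHom.comp_apply]
        have e1 : ((heckeBetaBar Kb N ℓ : FN N →ₐ[Kb] FN (N * ℓ)) : FN N →+* FN (N * ℓ))
            (thetaIncl N ⟨Jser d, Jser_mem_A0 ⟨e, hde⟩⟩)
            = thetaIncl (N * ℓ) ⟨Jser (ℓ * d), Jser_mem_A0 hd'⟩ := by
          apply Subtype.ext
          show ((heckeBetaBar Kb N ℓ (thetaIncl N ⟨Jser d, Jser_mem_A0 ⟨e, hde⟩⟩) : FN (N * ℓ)) :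
            LaurentSeries Kb) = Jser (ℓ * d)
          rw [coe_heckeBetaBar]
          show qExpand Kb ℓ (Jser d) = Jser (ℓ * d)
          rw [phi_Jser_of_ne, phi_Jser_of_ne, jqNModC, jqNModC, qExpand_qExpand]
        rw [e1, theta_incl, hc, Cards.cuspChart_onB, stdEmb_apply]
        have e2 : ((actB (N * ℓ) hm⁻¹ (PhiB (N * ℓ) ⟨Jser (ℓ * d), Jser_mem_A0 hd'⟩) : Btil (N * ℓ)) :
            ℍ → ℂ) = pre d 0 ℓ jFun := by
          rw [coe_actB, PhiB_Jser (N * ℓ) hd']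
          exact EmbG0.act_jd_eq_pre hℓ hd0 e hde a (-v) hab hm rfl rfl rfl rfl
        have hℓN : ℓ ∣ N * ℓ := Dvd.intro_left N rfl
        have : NeZero (d * (N * ℓ / ℓ)) :=
          ⟨by rw [Nat.mul_div_cancel _ hℓ]; exact (Nat.mul_pos hd0 hN).ne'⟩
        rw [expandC_TInf_congr (N * ℓ) e2 _ (pre_jFun_mem_perSub hd0 hℓ hℓN),
          TInf_pre_jFun hd0 hℓ hℓN]
        have h0 : rootU ℓ ((0 : ℕ) : ℤ) = 1 := by rw [Nat.cast_zero]; exact expandC_rootU_zero ℓ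
        rw [h0, S24.twist_one]
        show _ = qExpand ℂ N (coeffMap iotaK (Jser d))
        rw [phi_Jser_of_ne, jqNModC, coeffMap_qExpand, phi_coeffMap_jqModC, qExpand_qExpand]
        exact qExpand_congr (by rw [Nat.mul_div_cancel _ hℓ, mul_comm]) _
    exact congrArg (fun F : A0 N →+* LaurentSeries ℂ => F x) h2
  intro f
  exact congrArg (fun F : FN N →+* LaurentSeries ℂ => F f) key

end Fermat.Agent.GES
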