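import Fermat.Agent.GES.Defs

set_option autoImplicit false

/-!
# GES task P2-Fin : finiteness / integrality / degree of the two degeneracy maps

All from S24: `isFF1_FN`, `IsFF1.isAlgebraic`, `IsFF1.finiteDimensional`, `finrank_jF`,
`transcendental_jF`, and `Fermat.Agent.ES.dedekindPsi_prime_mul_of_not_dvd`.
-/

noncomputable section

namespace Fermat.Agent.GES

open AlgebraicCurve ModularCurve IntermediateField
open Fermat.Agent.S24 (Kb FN iotaK)

section abstract

variable {K F F' : Type*} [Field K] [Field F] [Field F'] [Algebra K F] [Algebra K F']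

/-- the isomorphism `K(x) ≃ K(φ x)` induced by `φ`. -/
def adjoinEquivAlong (φ : F →ₐ[K] F') (x : F) : K⟮x⟯ ≃ₐ[K] K⟮φ x⟯ :=
  (IntermediateField.equivMap K⟮x⟯ φ).trans
    (IntermediateField.equivOfEq (by rw [IntermediateField.adjoin_map, Set.image_singleton]))

theorem coe_adjoinEquivAlong (φ : F →ₐ[K] F') (x : F) (a : K⟮x⟯) :
    (adjoinEquivAlong φ x a : F') = φ a := rfl

theorem finite_along_of_adjoin (φ : F →ₐ[K] F') (x : F) [FiniteDimensional K⟮φ x⟯ F'] :
    FiniteAlong K φ := by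
  unfold FiniteAlong
  let _ := algebraAlong φ
  let _ : Algebra K⟮x⟯ F' := ((algebraMap F F').comp (algebraMap K⟮x⟯ F)).toAlgebra
  have : IsScalarTower K⟮x⟯ F F' := IsScalarTower.of_algebraMap_eq (fun _ => rfl)
  have h1 : Module.Finite K⟮x⟯ F' :=
    Module.Finite.of_equiv_equiv (A₁ := K⟮φ x⟯) (B₁ := F')
      ((adjoinEquivAlong φ x).symm : K⟮φ x⟯ ≃+* K⟮x⟯) (RingEquiv.refl F') (by
        ext a
        obtain ⟨b, rfl⟩ := (adjoinEquivAlong φ x).surjective a
        simp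
        rfl)
  exact Module.Finite.of_restrictScalars_finite K⟮x⟯ F F'

theorem finrank_along_of_adjoin (φ : F →ₐ[K] F') (x : F) :
    letI := algebraAlong φ
    Module.finrank K⟮x⟯ F * Module.finrank F F' = Module.finrank K⟮φ x⟯ F' := by
  let _ := algebraAlong φ
  let _ : Algebra K⟮x⟯ F' := ((algebraMap F F').comp (algebraMap K⟮x⟯ F)).toAlgebra
  have : IsScalarTower K⟮x⟯ F F' := IsScalarTower.of_algebraMap_eq (fun _ => rfl)
  rw [Module.finrank_mul_finrank K⟮x⟯ F F']
  exact Algebra.finrank_eq_of_equiv_equiv ((adjoinEquivAlong φ x) : K⟮x⟯ ≃+* K⟮φ x⟯)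
    (RingEquiv.refl F') (by
      ext a
      rfl)

end abstract

variable (N ℓ : ℕ) [NeZero N] [NeZero ℓ]

theorem alpha_jF : heckeAlphaBar Kb N ℓ (S24.jF N) = S24.jF (N * ℓ) := rfl

theorem finite_alpha : FiniteAlong Kb (heckeAlphaBar Kb N ℓ) := by
  have : FiniteDimensional Kb⟮heckeAlphaBar Kb N ℓ (S24.jF N)⟯ (FN (N * ℓ)) := by
    rw [alpha_jF]
    exact S24.finiteDimensional_jF (N * ℓ)
  exact finite_along_of_adjoin (heckeAlphaBar Kb N ℓ) (S24.jF N)

theorem finiteDimensional_algA : letI := algA N ℓ; FiniteDimensional (FN N) (FN (N * ℓ)) :=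
  finite_alpha N ℓ

theorem isIntegral_alpha : HeckeAlphaBarIntegral Kb N ℓ := by
  unfold HeckeAlphaBarIntegral
  let _ := algebraAlong (heckeAlphaBar Kb N ℓ)
  have h : Module.Finite (FN N) (FN (N * ℓ)) := finite_alpha N ℓ
  have h2 : Algebra.IsIntegral (FN N) (FN (N * ℓ)) := Algebra.IsIntegral.of_finite _ _
  exact algebraMap_isIntegral_iff.mpr h2

theorem isIntegral_beta : HeckeBetaBarIntegral Kb N ℓ := by
  unfold HeckeBetaBarIntegral
  have htr : Transcendental Kb (heckeBetaBar Kb N ℓ (S24.jF N)) :=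
    fun h => S24.transcendental_jF N
      ((isAlgebraic_algHom_iff (heckeBetaBar Kb N ℓ) (heckeBetaBar Kb N ℓ).injective).mp h)
  have : FiniteDimensional Kb⟮heckeBetaBar Kb N ℓ (S24.jF N)⟯ (FN (N * ℓ)) :=
    (S24.isFF1_FN (N * ℓ)).finiteDimensional htr
  have h0 := finite_along_of_adjoin (heckeBetaBar Kb N ℓ) (S24.jF N)
  let _ := algebraAlong (heckeBetaBar Kb N ℓ)
  have h : Module.Finite (FN N) (FN (N * ℓ)) := h0
  have h2 : Algebra.IsIntegral (FN N) (FN (N * ℓ)) := Algebra.IsIntegral.of_finite _ _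
  exact algebraMap_isIntegral_iff.mpr h2

theorem finrank_algA (hℓ : ℓ.Prime) (hℓN : ¬ ℓ ∣ N) :
    letI := algA N ℓ; Module.finrank (FN N) (FN (N * ℓ)) = ℓ + 1 := by
  have h := finrank_along_of_adjoin (heckeAlphaBar Kb N ℓ) (S24.jF N)
  have h2 : dedekindPsi (N * ℓ) = (ℓ + 1) * dedekindPsi N := by
    rw [mul_comm N ℓ, Fermat.Agent.ES.dedekindPsi_prime_mul_of_not_dvd hℓ (NeZero.ne N) hℓN]
  rw [alpha_jF, S24.finrank_jF, S24.finrank_jF, h2, mul_comm] at h
  have h3 : dedekindPsi N ≠ 0 := by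
    rw [← S24.finrank_jF N]
    have := S24.finiteDimensional_jF N
    exact Module.finrank_pos.ne'
  exact Nat.eq_of_mul_eq_mul_right (Nat.pos_of_ne_zero h3) h

end Fermat.Agent.GES
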