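import Fermat.Agent.GES.Fin

set_option autoImplicit false

/-!
# GES task G1-GalNorm : the multiplicative Hecke operator commutes with Galois

`Algebra.norm_eq_of_equiv_equiv` with `e₁ = galF N σ`, `e₂ = galF (N*ℓ) σ` (both are coefficientwise, the algebra map
`algA N ℓ` is the inclusion, so the compatibility square is `Subtype.ext rfl`), and
`heckeBetaBar (galF N σ f) = galF (N*ℓ) σ (heckeBetaBar f)` by Prelude `ModularCurve.coeffMap_qExpand`.
-/

noncomputable section

namespace Fermat.Agent.GES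

open AlgebraicCurve ModularCurve
open Fermat.Agent.S24 (Kb FN iotaK)

variable (N ℓ : ℕ) [NeZero N] [NeZero ℓ]

theorem beta_galF (σ : GQ) (f : FN N) :
    heckeBetaBar Kb N ℓ (galF N σ f) = galF (N * ℓ) σ (heckeBetaBar Kb N ℓ f) := by
  apply Subtype.ext
  rw [coe_heckeBetaBar, coe_galF, coe_galF, coe_heckeBetaBar, coeffMap_qExpand]

theorem normA_galF (σ : GQ) (y : FN (N * ℓ)) :
    normA N ℓ (galF (N * ℓ) σ y) = galF N σ (normA N ℓ y) := by
  let _ := algA N ℓ
  have h := Algebra.norm_eq_of_equiv_equiv (galF N σ) (galF (N * ℓ) σ) (by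
    ext f
    rfl) y
  exact (RingEquiv.symm_apply_eq _).mp h.symm

theorem heckeF_galF (σ : GQ) (f : FN N) :
    heckeF N ℓ (galF N σ f) = galF N σ (heckeF N ℓ f) := by
  rw [heckeF_apply, heckeF_apply, beta_galF, normA_galF]

/-- `T_ℓ` of a constant. -/
theorem heckeF_algebraMap (a : Kb) :
    letI := algA N ℓ
    heckeF N ℓ (algebraMap Kb (FN N) a) =
      algebraMap Kb (FN N) (a ^ Module.finrank (FN N) (FN (N * ℓ))) := by
  let _ := algA N ℓ
  rw [heckeF_apply, AlgHom.commutes]
  have h : algebraMap Kb (FN (N * ℓ)) a = algebraMap (FN N) (FN (N * ℓ)) (algebraMap Kb (FN N) a) :=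
    ((heckeAlphaBar Kb N ℓ).commutes a).symm
  rw [h, map_pow]
  exact Algebra.norm_algebraMap _

end Fermat.Agent.GES
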