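import Mathlib
import Fermat.Prelude.Def_AlgebraicCurve_DivisorClassGroup

set_option autoImplicit false

/-!
# GES (geometric Eichler-Shimura), abstract part: the group of Kummer classes

`Vm K F m = {f ∈ Fˣ : m ∣ ord_v f for all places v} / (Fˣ)^m`, written additively.
(For `K` algebraically closed this is `Pic⁰(F)[m]`, via `f ↦ (1/m) div f`.)
-/

noncomputable section

namespace Fermat.Agent.GES

open AlgebraicCurve

section Defs

variable (K F : Type*) [Field K] [Field F] [Algebra K F]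

/-- units whose divisor is divisible by `m`. -/
def divBy (m : ℕ) : Subgroup Fˣ where
  carrier := {f | ∀ v : Place K F, (m : ℤ) ∣ v.ord (f : F)}
  one_mem' := fun v => by simp
  mul_mem' := fun {a b} ha hb v => by
    rw [Units.val_mul, Place.ord_mul v a.ne_zero b.ne_zero]
    exact dvd_add (ha v) (hb v)
  inv_mem' := fun {a} ha v => by
    rw [Units.val_inv_eq_inv_val, Place.ord_inv]
    exact (dvd_neg).2 (ha v)

variable {K F} in
theorem mem_divBy {m : ℕ} {f : Fˣ} :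
    f ∈ divBy K F m ↔ ∀ v : Place K F, (m : ℤ) ∣ v.ord (f : F) := Iff.rfl

/-- the `m`-th powers, inside `divBy`. -/
def powSub (m : ℕ) : Subgroup (divBy K F m) :=
  ((powMonoidHom m : Fˣ →* Fˣ).range).subgroupOf (divBy K F m)

/-- the group of Kummer classes, written additively. -/
def Vm (m : ℕ) : Type _ := Additive (divBy K F m ⧸ powSub K F m)

instance (m : ℕ) : AddCommGroup (Vm K F m) :=
  inferInstanceAs (AddCommGroup (Additive (divBy K F m ⧸ powSub K F m)))

end Defs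

variable {K F : Type*} [Field K] [Field F] [Algebra K F]

theorem pow_mem_divBy (m : ℕ) (w : Fˣ) : w ^ m ∈ divBy K F m := fun v => by
  rw [Units.val_pow_eq_pow_val, ← zpow_natCast, Place.ord_zpow]
  exact dvd_mul_right _ _

theorem divBy_le_of_dvd {m m' : ℕ} (h : m' ∣ m) : divBy K F m ≤ divBy K F m' := fun _ hf v =>
  (Int.natCast_dvd_natCast.2 h).trans (hf v)

namespace Vm

/-- the class of `f`. -/
def mk {m : ℕ} (f : divBy K F m) : Vm K F m := Additive.ofMul (QuotientGroup.mk f)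

theorem mk_surjective {m : ℕ} : Function.Surjective (mk : divBy K F m → Vm K F m) := by
  intro x
  obtain ⟨f, hf⟩ := QuotientGroup.mk_surjective (Additive.toMul x)
  exact ⟨f, by rw [mk, hf]; rfl⟩

@[simp] theorem mk_mul {m : ℕ} (f g : divBy K F m) : mk (f * g) = mk f + mk g := rfl

@[simp] theorem mk_one {m : ℕ} : mk (1 : divBy K F m) = 0 := rfl

@[simp] theorem mk_inv {m : ℕ} (f : divBy K F m) : mk f⁻¹ = - mk f := rfl

@[simp] theorem mk_div {m : ℕ} (f g : divBy K F m) : mk (f / g) = mk f - mk g := rfl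

@[simp] theorem mk_pow {m : ℕ} (f : divBy K F m) (n : ℕ) : mk (f ^ n) = n • mk f := rfl

theorem mk_eq_zero_iff {m : ℕ} (f : divBy K F m) :
    mk f = 0 ↔ ∃ w : Fˣ, w ^ m = (f : Fˣ) := by
  have h1 : mk f = 0 ↔ (QuotientGroup.mk f : divBy K F m ⧸ powSub K F m) = 1 := Iff.rfl
  rw [h1, QuotientGroup.eq_one_iff, powSub, Subgroup.mem_subgroupOf, MonoidHom.mem_range]
  rfl

/-- field version of `mk_eq_zero_iff`. -/
theorem mk_eq_zero_of_pow_eq {m : ℕ} (hm : m ≠ 0) (f : divBy K F m) (w : F)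
    (hw : w ^ m = ((f : Fˣ) : F)) : mk f = 0 := by
  have hw0 : w ≠ 0 := by
    rintro rfl
    rw [zero_pow hm] at hw
    exact (f : Fˣ).ne_zero hw.symm
  exact (mk_eq_zero_iff f).2 ⟨Units.mk0 w hw0, Units.ext (by simpa using hw)⟩

theorem mk_eq_mk_iff {m : ℕ} (f g : divBy K F m) :
    mk f = mk g ↔ ∃ w : Fˣ, w ^ m = (f : Fˣ) / (g : Fˣ) := by
  rw [← sub_eq_zero, ← mk_div, mk_eq_zero_iff]
  rfl

theorem nsmul_eq_zero {m : ℕ} (x : Vm K F m) : m • x = 0 := by
  obtain ⟨f, rfl⟩ := mk_surjective x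
  rw [← mk_pow, mk_eq_zero_iff]
  exact ⟨f, rfl⟩

instance (m : ℕ) : Module (ZMod m) (Vm K F m) := AddCommGroup.zmodModule nsmul_eq_zero

variable {K' F' : Type*} [Field K'] [Field F'] [Algebra K' F']

/-- the map induced by a homomorphism of unit groups. -/
def map {m m' : ℕ} (φ : Fˣ →* F'ˣ) (hφ : ∀ f ∈ divBy K F m, φ f ∈ divBy K' F' m')
    (hm : m' ∣ m) : Vm K F m →+ Vm K' F' m' :=
  MonoidHom.toAdditive <|
    QuotientGroup.map (powSub K F m) (powSub K' F' m')
      ((φ.comp (divBy K F m).subtype).codRestrict (divBy K' F' m') fun f => hφ f f.2) (by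
        rintro ⟨f, hf⟩ hfp
        obtain ⟨w, hw⟩ := hfp
        obtain ⟨c, rfl⟩ := hm
        refine ⟨φ w ^ c, ?_⟩
        show (φ w ^ c) ^ m' = φ f
        have hw' : w ^ (m' * c) = f := hw
        rw [← hw', map_pow, ← pow_mul, mul_comm])

@[simp] theorem map_mk {m m' : ℕ} (φ : Fˣ →* F'ˣ) (hφ : ∀ f ∈ divBy K F m, φ f ∈ divBy K' F' m')
    (hm : m' ∣ m) (f : divBy K F m) :
    map φ hφ hm (mk f) = mk ⟨φ f, hφ f f.2⟩ := rfl

/-- an endomorphism as a `ZMod m`-linear map. -/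
def mapEnd {m : ℕ} (φ : Fˣ →* Fˣ) (hφ : ∀ f ∈ divBy K F m, φ f ∈ divBy K F m) :
    Module.End (ZMod m) (Vm K F m) :=
  (map φ hφ dvd_rfl).toZModLinearMap m

@[simp] theorem mapEnd_mk {m : ℕ} (φ : Fˣ →* Fˣ) (hφ : ∀ f ∈ divBy K F m, φ f ∈ divBy K F m)
    (f : divBy K F m) : mapEnd φ hφ (mk f) = mk ⟨φ f, hφ f f.2⟩ := by
  rw [mapEnd, ← map_mk φ hφ dvd_rfl f]
  exact congrFun (AddMonoidHom.coe_toZModLinearMap m (map φ hφ dvd_rfl)) (mk f)

/-- the transition map `V_m → V_{m'}`, `[f] ↦ [f]`, for `m' ∣ m`. -/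
def trans (K F : Type*) [Field K] [Field F] [Algebra K F] {m m' : ℕ} (hm : m' ∣ m) :
    Vm K F m →+ Vm K F m' :=
  map (MonoidHom.id Fˣ) (fun _ hf => divBy_le_of_dvd hm hf) hm

@[simp] theorem trans_mk {m m' : ℕ} (hm : m' ∣ m) (f : divBy K F m) :
    trans K F hm (mk f) = mk (⟨(f : Fˣ), divBy_le_of_dvd hm f.2⟩ : divBy K F m') :=
  map_mk (MonoidHom.id Fˣ) (fun _ hf => divBy_le_of_dvd hm hf) hm f

/-- two additive maps out of `Vm` agreeing on classes are equal. -/
theorem hom_ext {M : Type*} [AddZeroClass M] {m : ℕ} {a b : Vm K F m →+ M}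
    (h : ∀ f : divBy K F m, a (mk f) = b (mk f)) : a = b := by
  ext x
  obtain ⟨f, rfl⟩ := mk_surjective x
  exact h f

theorem end_ext {m : ℕ} {a b : Module.End (ZMod m) (Vm K F m)}
    (h : ∀ f : divBy K F m, a (mk f) = b (mk f)) : a = b := by
  ext x
  obtain ⟨f, rfl⟩ := mk_surjective x
  exact h f

end Vm

end Fermat.Agent.GES
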