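import Fermat.Agent.GES.Ops

set_option autoImplicit false

/-!
# GES task L1-Level : every element of `F_N` (hence of `V_m(N)`) is fixed by an open subgroup of `G_ℚ`

`f ∈ laurentBaseChange Kb F₀ = Subfield.closure (constants ∪ coeffEmb '' F₀)` (`mem_laurentBaseChange_iff`);
`Subfield.closure_induction` with the predicate `∃ L finite, ∀ σ fixing L, coeffMap σ x = x`:
constants `a`: `L = ℚ⟮a⟯` (`IntermediateField.adjoin.finiteDimensional`, `a` is integral over `ℚ`), `coeffMap_algebraMap`;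
`coeffEmb z`: `L = ⊥`, `coeffMap_coeffEmb`;  `+, *, ⁻¹, -`: `L₁ ⊔ L₂` (`IntermediateField.finiteDimensional_sup`).
-/

noncomputable section

namespace Fermat.Agent.GES

open AlgebraicCurve ModularCurve
open Fermat.Agent.S24 (Kb FN iotaK)

theorem level_aux (F₀ : IntermediateField ℚ (LaurentSeries ℚ)) (x : LaurentSeries Kb)
    (hx : x ∈ laurentBaseChange Kb F₀) :
    ∃ L : IntermediateField ℚ (AlgebraicClosure ℚ), FiniteDimensional ℚ L ∧
      ∀ σ : GQ, (∀ x ∈ L, σ x = x) → coeffMap (σ : Kb →+* Kb) x = x := by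
  rw [mem_laurentBaseChange_iff] at hx
  induction hx using Subfield.closure_induction with
  | mem y hy =>
      rcases hy with ⟨a, rfl⟩ | ⟨z, hz, rfl⟩
      · refine ⟨IntermediateField.adjoin ℚ {a}, ?_, fun σ hσ => ?_⟩
        · have h1 : Algebra.IsAlgebraic ℚ (AlgebraicClosure ℚ) := AlgebraicClosure.isAlgebraic ℚ
          exact IntermediateField.adjoin.finiteDimensional
            (h1.isAlgebraic a).isIntegral
        · rw [coeffMap_algebraMap]
          congr 1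
          exact hσ a (IntermediateField.mem_adjoin_simple_self ℚ a)
      · exact ⟨⊥, inferInstance, fun σ _ => coeffMap_coeffEmb σ z⟩
  | one => exact ⟨⊥, inferInstance, fun σ _ => map_one _⟩
  | add x y _ _ hx hy =>
      obtain ⟨L₁, h₁, H₁⟩ := hx
      obtain ⟨L₂, h₂, H₂⟩ := hy
      refine ⟨L₁ ⊔ L₂, IntermediateField.finiteDimensional_sup L₁ L₂, fun σ hσ => ?_⟩
      rw [map_add, H₁ σ fun x hx => hσ x ((le_sup_left : L₁ ≤ L₁ ⊔ L₂) hx),
        H₂ σ fun x hx => hσ x ((le_sup_right : L₂ ≤ L₁ ⊔ L₂) hx)]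
  | mul x y _ _ hx hy =>
      obtain ⟨L₁, h₁, H₁⟩ := hx
      obtain ⟨L₂, h₂, H₂⟩ := hy
      refine ⟨L₁ ⊔ L₂, IntermediateField.finiteDimensional_sup L₁ L₂, fun σ hσ => ?_⟩
      rw [map_mul, H₁ σ fun x hx => hσ x ((le_sup_left : L₁ ≤ L₁ ⊔ L₂) hx),
        H₂ σ fun x hx => hσ x ((le_sup_right : L₂ ≤ L₁ ⊔ L₂) hx)]
  | neg x _ hx =>
      obtain ⟨L₁, h₁, H₁⟩ := hx
      exact ⟨L₁, h₁, fun σ hσ => by rw [map_neg, H₁ σ hσ]⟩
  | inv x _ hx =>
      obtain ⟨L₁, h₁, H₁⟩ := hx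
      exact ⟨L₁, h₁, fun σ hσ => by rw [map_inv₀, H₁ σ hσ]⟩

theorem exists_level_F (N : ℕ) (f : FN N) :
    ∃ L : IntermediateField ℚ (AlgebraicClosure ℚ), FiniteDimensional ℚ L ∧
      ∀ σ : GQ, (∀ x ∈ L, σ x = x) → galF N σ f = f := by
  obtain ⟨L, hL, h⟩ := level_aux (modularFunctionFieldFull N) f.1 f.2
  exact ⟨L, hL, fun σ hσ => Subtype.ext (h σ hσ)⟩

theorem exists_level_V (N m : ℕ) (x : VN N m) :
    ∃ L : IntermediateField ℚ (AlgebraicClosure ℚ), FiniteDimensional ℚ L ∧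
      ∀ σ : GQ, (∀ y ∈ L, σ y = y) → rhoV N m σ x = x := by
  obtain ⟨f, rfl⟩ := Vm.mk_surjective x
  obtain ⟨L, hL, h⟩ := exists_level_F N ((f : (FN N)ˣ) : FN N)
  refine ⟨L, hL, fun σ hσ => ?_⟩
  rw [rhoV_mk]
  exact congrArg Vm.mk (Subtype.ext (Units.ext (h σ hσ)))

end Fermat.Agent.GES
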