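import Fermat.Agent.GES.Relation
import Fermat.Agent.GES.Level
import Fermat.Agent.GES.Big

set_option autoImplicit false

/-!
# GES: the deliverables of the chapter

* for all `m`: `rhoV N m`, `TV N m ℓ`, `TV_comm_rhoV`, `trans_rhoV`, `trans_TV` (Ops.lean), `es_relation`, `unram` (Relation.lean),
  `exists_level_V` (Level.lean), `star` (Star.lean);
* for `m = p`: `esBig N p : ESBig N p` and `exists_esDatum_of_occurs`.
-/

noncomputable section

open scoped TensorProduct

namespace Fermat.Agent.GES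

open Fermat.Agent.S24 (Kb FN iotaK)

/-- the big Eichler-Shimura datum on `V_p(N) ≅ J₀(N)[p]`. -/
def esBig (N p : ℕ) [NeZero N] [NeZero p] : ESBig N p where
  V := VN N p
  ρ := rhoV N p
  level := exists_level_V N p
  T := TV N p
  comm := TV_comm_rhoV N p
  es := fun ℓ hℓ hℓNp A hA σ hσ => es_relation N p ℓ hℓ hℓNp A hA σ hσ
  unram := fun ℓ hℓ hℓNp A hA σ hσ => unram N p ℓ hℓ hℓNp A hA σ hσ

/-- **What NV has to feed**: a non-zero eigenvector in `K ⊗ V_p(N)`. -/
theorem exists_esDatum_of_occurs (N p : ℕ) [NeZero N] [Fact p.Prime] {K : Type} [Field K]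
    [Algebra (ZMod p) K] (c : ℕ → K)
    (h : haveI : NeZero p := ⟨(Fact.out : p.Prime).ne_zero⟩
      ∃ v : K ⊗[ZMod p] VN N p, v ≠ 0 ∧
        ∀ ℓ : ℕ, ℓ.Prime → ¬ ℓ ∣ N * p → (TV N p ℓ).baseChange K v = c ℓ • v) :
    ∃ D : Fermat.Agent.S29.ESDatum N p, D.Occurs c :=
  haveI : NeZero p := ⟨(Fact.out : p.Prime).ne_zero⟩
  (esBig N p).exists_esDatum c h

end Fermat.Agent.GES
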