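import Fermat.Agent.S24.Dedekind
import Fermat.Agent.S24.PlaceBasic

set_option autoImplicit false

/-!
# GES task P1-NormOrd : the norm preserves `m ∣ div`

ABSTRACT (no modular curves).  `E / F` a finite separable extension of function fields over `K`.
If `m ∣ ord_w g` for all places `w` of `E` then `m ∣ ord_v (N_{E/F} g)` for all places `v` of `F`.

SKETCH.  Fix `v`.  `R := v.toValuationSubring` (a DVR with `IsFractionRing R F`),
`S := integralClosure R E`: Dedekind (`integralClosure.isDedekindDomain R F E`), `Module.Finite R S`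
(`IsIntegralClosure.finite R F E S`), `IsFractionRing S E`
(`integralClosure.isFractionRing_of_finite_extension F E`), `Algebra K S` (`Subalgebra.algebra'`).
1. For `0 ≠ s ∈ S` with `m ∣ ord_w s` for all places `w` of `E`: every `P : HeightOneSpectrum S` gives the place
   `Place.ofHeightOneSpectrum P` and `S24.ord_ofHeightOneSpectrum` identifies its `ord` with `-log (P.valuation E s)`,
   i.e. with the multiplicity of `P` in `span {s}` (`HeightOneSpectrum.valuation_of_algebraMap`, `intValuation_def`/
   `intValuation_if_neg`, `Associates.count`/`count_normalizedFactors…`).  So all multiplicities in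
   `normalizedFactors (span {s})` are divisible by `m`; `Multiset.exists_smul_of_dvd_count` gives `span {s} = J ^ m`.
2. `Ideal.relNorm R` is multiplicative, `Ideal.relNorm_singleton`: `span {intNorm R S s} = (relNorm R J) ^ m`;
   `R` is a DVR, `relNorm R J = span {π ^ k}`, so `intNorm R S s = unit * π ^ (k m)`;
   `Algebra.algebraMap_intNorm`: `(intNorm R S s : F) = Algebra.norm F (s : E)`; `Place.ord_unit_smul_zpow`.
3. General `g`: there is `0 ≠ r ∈ R` with `r • g` integral (`IsIntegralClosure.exists_smul_eq_mul` / `exists_integral_multiple`),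
   `r = unit * π ^ j`; so `g' = g * π ^ (m * j)` is integral; `N g' = N g * π ^ (m j [E:F])`
   (`Algebra.norm_algebraMap`), `ord_w g' = ord_w g + m j ord_w π`.
-/

namespace Fermat.Agent.GES

open AlgebraicCurve IsDedekindDomain

namespace NormOrd

/-- an ideal of a Dedekind domain all of whose multiplicities are divisible by `m` is an `m`-th
power. -/
theorem exists_pow_eq {S : Type*} [CommRing S] [IsDedekindDomain S] (m : ℕ) (I : Ideal S)
    (hI : I ≠ ⊥)
    (h : ∀ P : HeightOneSpectrum S,
      m ∣ (Associates.mk P.asIdeal).count (Associates.mk I).factors) :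
    ∃ J : Ideal S, I = J ^ m := by
  classical
  obtain ⟨u, hu⟩ := Multiset.exists_smul_of_dvd_count
    (UniqueFactorizationMonoid.normalizedFactors I) (k := m) (by
      intro P hP
      have hprime := UniqueFactorizationMonoid.prime_of_normalized_factor P hP
      have h1 := h ⟨P, Ideal.isPrime_of_prime hprime, hprime.ne_zero⟩
      rwa [Ideal.count_associates_factors_eq hI (Ideal.isPrime_of_prime hprime) hprime.ne_zero]
        at h1)
  refine ⟨u.prod, ?_⟩
  rw [← Multiset.prod_nsmul, ← hu, Ideal.prod_normalizedFactors_eq_self hI]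

/-- the order at the place attached to a prime, in terms of multiplicities. -/
theorem ord_eq_count {K E S : Type*} [Field K] [Field E] [Algebra K E] [CommRing S]
    [IsDedekindDomain S] [Algebra S E] [IsFractionRing S E] [Algebra K S] [IsScalarTower K S E]
    (P : HeightOneSpectrum S) {s : S} (hs : s ≠ 0) :
    (Place.ofHeightOneSpectrum (K := K) (F := E) P).ord (algebraMap S E s) =
      ((Associates.mk P.asIdeal).count (Associates.mk (Ideal.span {s})).factors : ℤ) := by
  have hs' : algebraMap S E s ≠ 0 := by
    simpa using (IsFractionRing.injective S E).ne hs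
  rw [S24.ord_ofHeightOneSpectrum P hs', P.valuation_of_algebraMap, P.intValuation_if_neg hs]
  simp

theorem key {K F E R S : Type*} [Field K] [Field F] [Field E] [Algebra K E] [Algebra F E]
    [FiniteDimensional F E]
    [CommRing R] [IsDomain R] [IsPrincipalIdealRing R] [Algebra R F] [IsFractionRing R F]
    [CommRing S] [IsDedekindDomain S] [Algebra R S] [Algebra S E] [Algebra R E]
    [IsScalarTower R S E] [IsScalarTower R F E] [IsIntegralClosure S R E] [IsFractionRing S E]
    [Module.Finite R S] [Module.IsTorsionFree R S] [Algebra K S] [IsScalarTower K S E]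
    (m : ℕ) (hm : m ≠ 0) (g : E) (hg : g ≠ 0) (h : ∀ w : Place K E, (m : ℤ) ∣ w.ord g) :
    ∃ (u : Rˣ) (c : F), c ≠ 0 ∧ Algebra.norm F g = algebraMap R F u * c ^ m := by
  obtain ⟨a, b, hb, rfl⟩ := IsFractionRing.div_surjective (A := S) g
  have hb0 : b ≠ 0 := nonZeroDivisors.ne_zero hb
  have hb' : algebraMap S E b ≠ 0 := by
    simpa using (IsFractionRing.injective S E).ne hb0
  have ha0 : a ≠ 0 := by
    rintro rfl
    simp at hg
  obtain ⟨m', rfl⟩ : ∃ m', m = m' + 1 := ⟨m - 1, by omega⟩
  obtain ⟨s, hs⟩ : ∃ s : S, s = a * b ^ m' := ⟨_, rfl⟩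
  have hs0 : s ≠ 0 := hs ▸ mul_ne_zero ha0 (pow_ne_zero _ hb0)
  have hsE : algebraMap S E s = algebraMap S E a / algebraMap S E b * algebraMap S E b ^ (m' + 1) := by
    rw [hs, map_mul, map_pow]
    field_simp
    ring
  obtain ⟨J, hJ⟩ := exists_pow_eq (m' + 1) (Ideal.span {s}) (by simpa using hs0) (by
    intro P
    have h1 := ord_eq_count (K := K) (E := E) P hs0
    have h2 := h (Place.ofHeightOneSpectrum (K := K) (F := E) P)
    rw [hsE, Place.ord_mul _ hg (pow_ne_zero _ hb'), S24.ord_pow] at h1
    have h3 : ((m' + 1 : ℕ) : ℤ) ∣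
        ((Associates.mk P.asIdeal).count (Associates.mk (Ideal.span {s})).factors : ℤ) := by
      rw [← h1]
      exact dvd_add h2 (dvd_mul_right _ _)
    exact Int.natCast_dvd_natCast.mp h3)
  have h1 := congrArg (Ideal.relNorm R) hJ
  rw [map_pow, Ideal.relNorm_singleton] at h1
  obtain ⟨t, ht⟩ : ∃ t : R, Ideal.relNorm R J = Ideal.span {t} :=
    ⟨_, (Submodule.IsPrincipal.span_singleton_generator (Ideal.relNorm R J)).symm⟩
  rw [ht, Ideal.span_singleton_pow, Ideal.span_singleton_eq_span_singleton] at h1
  obtain ⟨u, hu⟩ := h1.symm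
  have h2 : algebraMap R F (Algebra.intNorm R S s) = Algebra.norm F (algebraMap S E s) :=
    Algebra.algebraMap_intNorm s
  have hNb : Algebra.norm F (algebraMap S E b) ≠ 0 := by
    rw [Algebra.norm_ne_zero_iff]; exact hb'
  have hNs : Algebra.norm F (algebraMap S E s) ≠ 0 := by
    rw [Algebra.norm_ne_zero_iff]
    simpa using (IsFractionRing.injective S E).ne hs0
  have ht0 : algebraMap R F t ≠ 0 := by
    intro h0
    apply hNs
    rw [← h2, ← hu, map_mul, map_pow, h0]
    simp
  refine ⟨u, algebraMap R F t / Algebra.norm F (algebraMap S E b), div_ne_zero ht0 hNb, ?_⟩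
  rw [hsE, ← hu, map_mul, map_mul, map_pow, map_pow] at h2
  rw [div_pow]
  field_simp
  rw [← h2]
  ring

end NormOrd

theorem dvd_ord_norm {K F E : Type*} [Field K] [Field F] [Field E] [Algebra K F] [Algebra K E]
    [Algebra F E] [IsScalarTower K F E] [FiniteDimensional F E] [CharZero F]
    (m : ℕ) (hm : m ≠ 0) (g : E) (hg : g ≠ 0) (h : ∀ w : Place K E, (m : ℤ) ∣ w.ord g)
    (v : Place K F) : (m : ℤ) ∣ v.ord (Algebra.norm F g) := by
  let _ : Algebra v.toValuationSubring E :=
    ((algebraMap F E).comp (algebraMap v.toValuationSubring F)).toAlgebra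
  have : IsScalarTower v.toValuationSubring F E := IsScalarTower.of_algebraMap_eq fun _ => rfl
  have : IsScalarTower K v.toValuationSubring E := IsScalarTower.of_algebraMap_eq fun a => by
    rw [IsScalarTower.algebraMap_apply K F E]
    rfl
  have : Module.IsTorsionFree v.toValuationSubring E := by
    rw [Module.isTorsionFree_iff_algebraMap_injective]
    exact (algebraMap F E).injective.comp Subtype.val_injective
  have : IsDedekindDomain (integralClosure v.toValuationSubring E) :=
    integralClosure.isDedekindDomain v.toValuationSubring F E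
  have : Module.Finite v.toValuationSubring (integralClosure v.toValuationSubring E) :=
    IsIntegralClosure.finite v.toValuationSubring F E _
  have : IsFractionRing (integralClosure v.toValuationSubring E) E :=
    integralClosure.isFractionRing_of_finite_extension F E
  obtain ⟨u, c, hc, hN⟩ := NormOrd.key (K := K) (F := F) (E := E) (R := v.toValuationSubring)
    (S := integralClosure v.toValuationSubring E) m hm g hg h
  rw [hN]
  have hu : algebraMap v.toValuationSubring F u ≠ 0 := by
    simp
  rw [Place.ord_mul _ hu (pow_ne_zero _ hc), S24.ord_pow]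
  have : v.ord (algebraMap v.toValuationSubring F u) = 0 := v.ord_coe_unit u
  rw [this, zero_add]
  exact dvd_mul_right _ _

end Fermat.Agent.GES
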