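import Mathlib

set_option autoImplicit false

/-!
# GES task S0-NormProd : the norm is the product over a full set of embeddings (abstract)

Copy the proof of `Fermat.Agent.S24.exists_charpoly_map` (Fermat/Agent/S24/CharProd.lean): with a basis `b` indexed by `Q`,
`A = Algebra.leftMulMatrix b y`, `V q i = τ q (b i)`, `D = diagonal (τ q y)` one has `D * V = V * A.map φ`, `det V ≠ 0`
(Dedekind independence `linearIndependent_monoidHom`), so `det (A.map φ) = det D = ∏ τ q y`;
`Algebra.norm_eq_matrix_det b y`, `RingHom.map_det`.
(Alternative: `Algebra.norm_eq_prod_embeddings` into `AlgebraicClosure M`, as in `S24.Count.exists_charpoly`,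
needs separability.)
-/

namespace Fermat.Agent.GES

theorem norm_eq_prod_of_embeddings {F E M : Type*} [Field F] [Field E] [Field M] [Algebra F E]
    [FiniteDimensional F E] {Q : Type*} [Fintype Q] (τ : Q → E →+* M) (hτ : Function.Injective τ)
    (hF : ∀ q q' (r : F), τ q (algebraMap F E r) = τ q' (algebraMap F E r))
    (hcard : Fintype.card Q = Module.finrank F E) (y : E) (q0 : Q) :
    τ q0 (algebraMap F E (Algebra.norm F y)) = ∏ q, τ q y := by
  classical
  let e : Fin (Module.finrank F E) ≃ Q := Fintype.equivOfCardEq (by simp [hcard])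
  let b : Module.Basis Q F E := (Module.finBasis F E).reindex e
  let A : Matrix Q Q F := Algebra.leftMulMatrix b y
  set φ : F →+* M := (τ q0).comp (algebraMap F E) with hφ
  have hφq : ∀ q (r : F), τ q (algebraMap F E r) = φ r := fun q r => hF q q0 r
  let V : Matrix Q Q M := fun q i => τ q (b i)
  let D : Matrix Q Q M := Matrix.diagonal fun q => τ q y
  have hexp : ∀ q (x : E), τ q x = ∑ i, φ (b.repr x i) * τ q (b i) := by
    intro q x
    conv_lhs => rw [← b.sum_repr x]
    rw [map_sum]
    refine Finset.sum_congr rfl fun i _ => ?_
    rw [Algebra.smul_def, map_mul, hφq]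
  have hDV : D * V = V * A.map φ := by
    ext q j
    rw [Matrix.diagonal_mul, Matrix.mul_apply]
    show τ q y * τ q (b j) = ∑ i, τ q (b i) * φ (A i j)
    rw [← map_mul, hexp q (y * b j)]
    refine Finset.sum_congr rfl fun i _ => ?_
    have hA : A i j = b.repr (y * b j) i := Algebra.leftMulMatrix_eq_repr_mul b y i j
    rw [hA, mul_comm]
  have hli : LinearIndependent M (fun q => (⇑(τ q) : E → M)) := by
    have h1 := linearIndependent_monoidHom E M
    have h2 : Function.Injective (fun q => ((τ q : E →+* M) : E →* M)) := by
      intro q q' h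
      apply hτ
      ext x
      exact DFunLike.congr_fun h x
    exact h1.comp _ h2
  have hdet : V.det ≠ 0 := by
    intro h0
    obtain ⟨c, hc0, hc⟩ := Matrix.exists_vecMul_eq_zero_iff.mpr h0
    apply hc0
    have hsum : ∑ q, c q • (⇑(τ q) : E → M) = 0 := by
      funext x
      simp only [Finset.sum_apply, Pi.smul_apply, smul_eq_mul, Pi.zero_apply]
      calc ∑ q, c q * τ q x = ∑ q, c q * ∑ i, φ (b.repr x i) * τ q (b i) := by
            refine Finset.sum_congr rfl fun q _ => ?_
            rw [← hexp]
        _ = ∑ i, φ (b.repr x i) * ∑ q, c q * τ q (b i) := by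
            simp only [Finset.mul_sum]
            rw [Finset.sum_comm]
            refine Finset.sum_congr rfl fun i _ => Finset.sum_congr rfl fun q _ => ?_
            ring
        _ = 0 := by
            refine Finset.sum_eq_zero fun i _ => ?_
            have := congrFun hc i
            simp only [Matrix.vecMul, dotProduct, Pi.zero_apply] at this
            rw [show ∑ q, c q * τ q (b i) = ∑ q, c q * V q i from rfl, this, mul_zero]
    funext q
    exact Fintype.linearIndependent_iff.mp hli c hsum q
  have h1 := congrArg Matrix.det hDV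
  rw [Matrix.det_mul, Matrix.det_mul, mul_comm, Matrix.det_diagonal] at h1
  have h2 := mul_left_cancel₀ hdet h1
  rw [h2]
  show φ (Algebra.norm F y) = _
  rw [Algebra.norm_eq_matrix_det b y, RingHom.map_det]
  rfl

end Fermat.Agent.GES
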