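import Fermat.Agent.GES.Preserve
import Fermat.Agent.GES.GalNorm

set_option autoImplicit false

/-!
# GES: the operators on `V_m(N)`

* `rhoV N m : G_ℚ →* End (V_m(N))`;
* `TV N m ℓ : End (V_m(N))` the Hecke operator (`0` for `ℓ = 0`);
* they commute, and are compatible with the transition maps `Vm.trans`.
-/

noncomputable section

namespace Fermat.Agent.GES

open AlgebraicCurve ModularCurve
open Fermat.Agent.S24 (Kb FN iotaK)

/-- the Galois representation on `V_m(N)`. -/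
def rhoV (N m : ℕ) : GQ →* Module.End (ZMod m) (VN N m) where
  toFun σ := Vm.mapEnd (galU N σ) (galU_mem N m σ)
  map_one' := by
    apply Vm.end_ext
    intro f
    rw [Vm.mapEnd_mk, Module.End.one_apply]
    exact congrArg Vm.mk (Subtype.ext (Units.ext (galF_one N _)))
  map_mul' σ τ := by
    apply Vm.end_ext
    intro f
    rw [Vm.mapEnd_mk, Module.End.mul_apply, Vm.mapEnd_mk, Vm.mapEnd_mk]
    exact congrArg Vm.mk (Subtype.ext (Units.ext (galF_mul N σ τ _)))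

@[simp] theorem rhoV_mk (N m : ℕ) (σ : GQ) (f : DN N m) :
    rhoV N m σ (Vm.mk f) = Vm.mk ⟨galU N σ f, galU_mem N m σ f f.2⟩ :=
  Vm.mapEnd_mk _ _ f

/-- the Hecke operator `T_ℓ` on `V_m(N)`, for `ℓ ≠ 0`. -/
def TV' (N m ℓ : ℕ) [NeZero N] [NeZero m] [NeZero ℓ] : Module.End (ZMod m) (VN N m) :=
  Vm.mapEnd (heckeU N ℓ) (heckeU_mem N ℓ m)

@[simp] theorem TV'_mk (N m ℓ : ℕ) [NeZero N] [NeZero m] [NeZero ℓ] (f : DN N m) :
    TV' N m ℓ (Vm.mk f) = Vm.mk ⟨heckeU N ℓ f, heckeU_mem N ℓ m f f.2⟩ :=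
  Vm.mapEnd_mk _ _ f

/-- the Hecke operator `T_ℓ` on `V_m(N)` (junk value `0` for `ℓ = 0`). -/
def TV (N m : ℕ) [NeZero N] [NeZero m] (ℓ : ℕ) : Module.End (ZMod m) (VN N m) :=
  if h : ℓ = 0 then 0 else haveI : NeZero ℓ := ⟨h⟩; TV' N m ℓ

theorem TV_eq (N m ℓ : ℕ) [NeZero N] [NeZero m] [NeZero ℓ] : TV N m ℓ = TV' N m ℓ := by
  rw [TV, dif_neg (NeZero.ne ℓ)]

theorem TV_mk (N m ℓ : ℕ) [NeZero N] [NeZero m] [NeZero ℓ] (f : DN N m) :
    TV N m ℓ (Vm.mk f) = Vm.mk ⟨heckeU N ℓ f, heckeU_mem N ℓ m f f.2⟩ := by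
  rw [TV_eq, TV'_mk]

theorem TV_comm_rhoV (N m : ℕ) [NeZero N] [NeZero m] (ℓ : ℕ) (σ : GQ) :
    TV N m ℓ * rhoV N m σ = rhoV N m σ * TV N m ℓ := by
  by_cases h : ℓ = 0
  · rw [TV, dif_pos h, zero_mul, mul_zero]
  have : NeZero ℓ := ⟨h⟩
  apply Vm.end_ext
  intro f
  rw [Module.End.mul_apply, Module.End.mul_apply, rhoV_mk, TV_mk, TV_mk, rhoV_mk]
  exact congrArg Vm.mk (Subtype.ext (Units.ext (heckeF_galF N ℓ σ _)))

/-- compatibility of Galois with the transition maps. -/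
theorem trans_rhoV (N : ℕ) {m m' : ℕ} (hm : m' ∣ m) (σ : GQ) (x : VN N m) :
    Vm.trans Kb (FN N) hm (rhoV N m σ x) = rhoV N m' σ (Vm.trans Kb (FN N) hm x) := by
  obtain ⟨f, rfl⟩ := Vm.mk_surjective x
  rw [rhoV_mk, Vm.trans_mk, Vm.trans_mk, rhoV_mk]

/-- compatibility of Hecke with the transition maps. -/
theorem trans_TV (N : ℕ) [NeZero N] {m m' : ℕ} [NeZero m] [NeZero m'] (hm : m' ∣ m) (ℓ : ℕ)
    (x : VN N m) :
    Vm.trans Kb (FN N) hm (TV N m ℓ x) = TV N m' ℓ (Vm.trans Kb (FN N) hm x) := by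
  by_cases h : ℓ = 0
  · rw [TV, TV, dif_pos h, dif_pos h]
    simp
  have : NeZero ℓ := ⟨h⟩
  obtain ⟨f, rfl⟩ := Vm.mk_surjective x
  rw [TV_mk, Vm.trans_mk, Vm.trans_mk, TV_mk]

end Fermat.Agent.GES
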