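import Fermat.Agent.GES.Fin
import Fermat.Agent.GES.NormOrd

set_option autoImplicit false

/-!
# GES task P3-Preserve : Galois and Hecke preserve `m ∣ div`
-/

noncomputable section

namespace Fermat.Agent.GES

open AlgebraicCurve ModularCurve
open Fermat.Agent.S24 (Kb FN iotaK)

/-- Prelude `SemilinearAut.ord_smul` for `g = arithmeticGalois (modularFunctionFieldFull N) σ`:
`v.ord (σ f) = (g⁻¹ • v).ord f`. -/
theorem galU_mem (N m : ℕ) (σ : GQ) : ∀ f ∈ DN N m, galU N σ f ∈ DN N m := by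
  intro f hf v
  have h := SemilinearAut.ord_smul (arithmeticGalois (modularFunctionFieldFull N) σ)
    ((arithmeticGalois (modularFunctionFieldFull N) σ)⁻¹ • v) (f : FN N)
  rw [smul_inv_smul] at h
  have h2 : ((galU N σ f : (FN N)ˣ) : FN N) =
      arithmeticGalois (modularFunctionFieldFull N) σ • (f : FN N) := rfl
  rw [h2, h]
  exact hf _

/-- `m ∣ div f ⟹ m ∣ div (f(q^ℓ))` on `F_{Nℓ}`: Prelude `Place.ord_restrictAlong` with `isIntegral_beta`. -/
theorem dvd_ord_beta (N ℓ : ℕ) [NeZero N] [NeZero ℓ] (m : ℕ) (f : FN N)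
    (h : ∀ v : Place Kb (FN N), (m : ℤ) ∣ v.ord f) (w : Place Kb (FN (N * ℓ))) :
    (m : ℤ) ∣ w.ord (heckeBetaBar Kb N ℓ f) := by
  rw [Place.ord_restrictAlong (heckeBetaBar Kb N ℓ) (isIntegral_beta N ℓ) w f]
  exact Dvd.dvd.mul_left (h _) _

/-- `dvd_ord_beta` + `dvd_ord_norm` (instances: `algA N ℓ`, `isScalarTower_along`, `finiteDimensional_algA`).
For `m = 0` the statement is still true but not needed: we assume `m ≠ 0`. -/
theorem heckeU_mem (N ℓ : ℕ) [NeZero N] [NeZero ℓ] (m : ℕ) [NeZero m] :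
    ∀ f ∈ DN N m, heckeU N ℓ f ∈ DN N m := by
  intro f hf v
  let _ := algA N ℓ
  have := isScalarTower_along (heckeAlphaBar Kb N ℓ)
  have := finiteDimensional_algA N ℓ
  exact dvd_ord_norm (K := Kb) (F := FN N) (E := FN (N * ℓ)) m (NeZero.ne m)
    (heckeBetaBar Kb N ℓ (f : FN N))
    ((map_ne_zero _).mpr f.ne_zero) (dvd_ord_beta N ℓ m (f : FN N) hf) v

end Fermat.Agent.GES
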