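import Fermat.Agent.S18.Red
import Fermat.Agent.S29.FDFixed

set_option autoImplicit false
set_option synthInstance.maxHeartbeats 400000

/-!
# GES task I2-RedGal : decomposition group, Frobenius lifts, inertia and roots of unity, on `A` and its residue field

Everything is unfolding of Mathlib's `ValuationSubring.decompositionSubgroup / inertiaSubgroup` and of the Prelude's
`IsFrobeniusAt`, `inertiaSubgroupIn`.  Useful: `S29.FDFixed.frob_sub_pow_mem`, `S29.FDFixed.charP_residue`,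
`S29.rho3_mem_of_pow_eq_one` (Cyclo.lean), `ValuationSubring.mem_nonunits_iff_exists_mem_maximalIdeal`,
`IsLocalRing.residue_eq_zero_iff`, `IsLocalRing.ResidueField.residue_smul`.
-/

noncomputable section

namespace Fermat.Agent.GES

open Fermat.Agent.S24 (Kb)
open Fermat.Agent.S18 (kA)

/-- the absolute Galois group of `ℚ`. -/
local notation "GQ'" => (AlgebraicClosure ℚ ≃ₐ[ℚ] AlgebraicClosure ℚ)

variable (A : ValuationSubring Kb)

/-- `σ` in the decomposition group restricts to a ring endomorphism of `A`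
(`MulSemiringAction.toRingHom (A.decompositionSubgroup ℚ) A ⟨σ, hσ⟩`). -/
theorem exists_sigA {σ : GQ'} (hσ : σ ∈ A.decompositionSubgroup ℚ) :
    ∃ s : A →+* A, ∀ a : A, ((s a : A) : Kb) = σ (a : Kb) := by
  exact ⟨MulSemiringAction.toRingHom (A.decompositionSubgroup ℚ) A ⟨σ, hσ⟩, fun a => rfl⟩

theorem residue_sigA_frob {σ : GQ'} {ℓ : ℕ} (hσ : A.IsFrobeniusAt σ ℓ) (s : A →+* A)
    (hs : ∀ a : A, ((s a : A) : Kb) = σ (a : Kb)) (a : A) :
    IsLocalRing.residue A (s a) = IsLocalRing.residue A a ^ ℓ := by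
  have h1 := S29.FDFixed.frob_sub_pow_mem A σ hσ (a : Kb) a.2
  rw [← map_pow, ← sub_eq_zero, ← map_sub, IsLocalRing.residue_eq_zero_iff,
    ← ValuationSubring.coe_mem_nonunits_iff]
  have h2 : ((s a - a ^ ℓ : A) : Kb) = σ (a : Kb) - (a : Kb) ^ ℓ := by
    rw [← hs a]
    rfl
  rw [h2]
  exact h1

theorem mem_decomposition_of_mem_inertia {σ : GQ'} (hσ : σ ∈ A.inertiaSubgroupIn ℚ) :
    σ ∈ A.decompositionSubgroup ℚ := by
  obtain ⟨x, -, rfl⟩ := hσ
  exact x.2

theorem residue_sigA_inertia {σ : GQ'} (hσ : σ ∈ A.inertiaSubgroupIn ℚ) (s : A →+* A)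
    (hs : ∀ a : A, ((s a : A) : Kb) = σ (a : Kb)) (a : A) :
    IsLocalRing.residue A (s a) = IsLocalRing.residue A a := by
  obtain ⟨x, hx, rfl⟩ := hσ
  have h1 : s a = x • a := Subtype.ext (hs a)
  rw [h1, IsLocalRing.ResidueField.residue_smul]
  have h2 := RingEquiv.congr_fun (MonoidHom.mem_ker.mp hx) (IsLocalRing.residue A a)
  exact h2

/-- a ring endomorphism of `A` induced by an automorphism of `ℚ̄` is local: it maps non-units to non-units
and units to units; on residues it is injective. -/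
theorem residue_sigA_eq_zero_iff {σ : GQ'} (hσ : σ ∈ A.decompositionSubgroup ℚ) (s : A →+* A)
    (hs : ∀ a : A, ((s a : A) : Kb) = σ (a : Kb)) (a : A) :
    IsLocalRing.residue A (s a) = 0 ↔ IsLocalRing.residue A a = 0 := by
  obtain ⟨s', hs'⟩ := exists_sigA A ((A.decompositionSubgroup ℚ).inv_mem hσ)
  have h1 : ∀ x : A, IsLocalRing.residue A x = 0 ↔ ¬ IsUnit x := fun x => by
    rw [IsLocalRing.residue_eq_zero_iff, IsLocalRing.mem_maximalIdeal, mem_nonunits_iff]
  rw [h1, h1, not_iff_not]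
  constructor
  · intro h
    have h2 : s' (s a) = a := by
      apply Subtype.ext
      rw [hs', hs]
      exact σ.symm_apply_apply _
    rw [← h2]
    exact h.map s'
  · intro h
    exact h.map s

/-- roots of unity are units of `A`. -/
theorem exists_unit_of_pow_eq_one {n : ℕ} (hn : n ≠ 0) (ζ : Kbˣ) (hζ : ζ ^ n = 1) :
    ∃ z : Aˣ, ((z : A) : Kb) = (ζ : Kb) := by
  have hmem : ∀ x : Kb, x ^ n = 1 → x ∈ A := by
    intro x hx
    rw [← A.valuation_le_one_iff]
    have h1 : A.valuation x ^ n ≤ 1 := by rw [← map_pow, hx, map_one]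
    exact (pow_le_one_iff hn).1 h1
  have h1 : ((ζ : Kb)) ^ n = 1 := by
    rw [← Units.val_pow_eq_pow_val, hζ, Units.val_one]
  have h2 : (((ζ⁻¹ : Kbˣ) : Kb)) ^ n = 1 := by
    rw [← Units.val_pow_eq_pow_val, inv_pow, hζ, inv_one, Units.val_one]
  exact ⟨⟨⟨_, hmem _ h1⟩, ⟨_, hmem _ h2⟩, Subtype.ext (Units.mul_inv ζ),
    Subtype.ext (Units.inv_mul ζ)⟩, rfl⟩

/-- `ℓ`-th roots of unity are `≡ 1` modulo a place over `ℓ`:  `(z̄ - 1)^ℓ = z̄^ℓ - 1 = 0` in the residue field
of characteristic `ℓ` (`S29.FDFixed.charP_residue`, `sub_pow_char`). -/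
theorem residue_eq_one_of_pow_eq_one {ℓ : ℕ} (hℓ : ℓ.Prime) (hA : A.LiesOverPrime ℓ) (z : A)
    (hz : z ^ ℓ = 1) : IsLocalRing.residue A z = 1 := by
  have : Fact ℓ.Prime := ⟨hℓ⟩
  have := S29.FDFixed.charP_residue A hℓ hA
  have h1 : (IsLocalRing.residue A z - 1) ^ ℓ = 0 := by
    rw [sub_pow_char, ← map_pow, hz, map_one, one_pow, sub_self]
  exact sub_eq_zero.mp (pow_eq_zero_iff hℓ.ne_zero |>.mp h1)

end Fermat.Agent.GES
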