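import Fermat.Agent.GES.Ops
import Fermat.Agent.GES.Cong
import Fermat.Agent.S18.CCGen

set_option autoImplicit false
set_option synthInstance.maxHeartbeats 400000

/-!
# GES tasks R0-R3 : inertia acts trivially and the Eichler-Shimura relation holds on `V_m(N)`, `ℓ ∤ N m`

* `mk_eq_zero_of_cong` : `h = c · X / Y` with `X ≡ Y ≢ 0 (mod 𝔪_A)`, `m ∣ div h`  ⟹  `[h] = 0` (wrapper of `S18.cc_gen`);
* `exists_normal_form` : `f = c · a / b` with `a, b` integral and not small;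
* `unram` : `τ f / f = (τ c / c) · (τ a · b) / (a · τ b)`;
* `es_relation` : `σ²f · f^ℓ / T_ℓ(σ f) = c' · (σ²a · a^ℓ · T_ℓ(σ b)) / (σ²b · b^ℓ · T_ℓ(σ a))`.
-/

noncomputable section

namespace Fermat.Agent.GES

open AlgebraicCurve ModularCurve
open Fermat.Agent.S24 (Kb FN iotaK)
open Fermat.Agent.S18 (kA IntA SmallA incA redA CCStatement cc_gen exists_normalised)

theorem rel_ne_zero {N : ℕ} {A : ValuationSubring Kb} {X : FN N} (h : ¬ SmallA A X.1) : X ≠ 0 := by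
  rintro rfl
  exact not_smallA_ne_zero h rfl

theorem mk_eq_zero_of_cong (N : ℕ) [NeZero N] {ℓ m : ℕ} [NeZero m] (hCC : CCStatement N ℓ m)
    (A : ValuationSubring Kb) (hA : A.LiesOverPrime ℓ) (h : DN N m) (c : Kb) (hc : c ≠ 0)
    (X Y : FN N) (hX : IntA A X.1) (hY : IntA A Y.1) (hY' : ¬ SmallA A Y.1)
    (hXY : SmallA A (X.1 - Y.1))
    (hh : ((h : (FN N)ˣ) : FN N) = algebraMap Kb (FN N) c * (X / Y)) : Vm.mk h = 0 := by
  have hY0 : Y ≠ 0 := rel_ne_zero hY'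
  have hX0 : X ≠ 0 := rel_ne_zero (not_smallA_of_sub hXY hY')
  have hc' : algebraMap Kb (FN N) c ≠ 0 := by
    simpa using hc
  have hord : ∀ v : Place Kb (FN N), (m : ℤ) ∣ v.ord (X / Y) := by
    intro v
    have h1 := h.2 v
    rw [hh, Place.ord_mul v hc' (div_ne_zero hX0 hY0), Fermat.Agent.S24.ord_algebraMap,
      zero_add] at h1
    exact h1
  obtain ⟨w, hw⟩ := hCC A hA X Y hX hY hY' hXY hord
  obtain ⟨c0, hc0⟩ := IsAlgClosed.exists_pow_nat_eq c (Nat.pos_of_ne_zero (NeZero.ne m))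
  exact Vm.mk_eq_zero_of_pow_eq (NeZero.ne m) h (algebraMap Kb (FN N) c0 * w)
    (by rw [mul_pow, ← map_pow, hc0, hw, hh])

theorem exists_normal_form (N : ℕ) [NeZero N] {ℓ : ℕ} (hℓ : ℓ.Prime) (A : ValuationSubring Kb)
    (hA : A.LiesOverPrime ℓ) (f : FN N) (hf : f ≠ 0) :
    ∃ (c : Kb) (a b : FN N), c ≠ 0 ∧ IntA A a.1 ∧ IntA A b.1 ∧ ¬ SmallA A a.1 ∧ ¬ SmallA A b.1 ∧
      f = algebraMap Kb (FN N) c * (a / b) := by
  obtain ⟨c, a', b', hc, haF, hbF, hra, hrb, hw⟩ := exists_normalised hℓ A hA N f hf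
  have hb' : ¬ SmallA A (incA A b') := fun h => hrb ((Fermat.Agent.S18.smallA_incA_iff A b').1 h)
  refine ⟨c, ⟨incA A a', haF⟩, ⟨incA A b', hbF⟩, hc, Fermat.Agent.S18.intA_incA A a',
    Fermat.Agent.S18.intA_incA A b',
    fun h => hra ((Fermat.Agent.S18.smallA_incA_iff A a').1 h), hb', ?_⟩
  have hb0 : (⟨incA A b', hbF⟩ : FN N) ≠ 0 := rel_ne_zero (A := A) hb'
  rw [mul_div_assoc', eq_div_iff hb0]
  apply Subtype.ext
  refine hw.trans ?_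
  show HahnSeries.C c * incA A a' = algebraMap Kb (LaurentSeries Kb) c * incA A a'
  rw [algebraMap_laurentSeries_eq_single]
  rfl


theorem rel_galF_formula (N : ℕ) (τ : GQ) (c : Kb) (a b : FN N) :
    galF N τ (algebraMap Kb (FN N) c * (a / b)) =
      algebraMap Kb (FN N) (τ c) * (galF N τ a / galF N τ b) := by
  rw [map_mul, map_div₀, galF_algebraMap]

theorem rel_intA_galF {N : ℕ} {A : ValuationSubring Kb} {σ : GQ}
    (hσ : σ ∈ A.decompositionSubgroup ℚ) {a : FN N} (ha : IntA A a.1) : IntA A (galF N σ a).1 :=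
  intA_coeffMap hσ ha

theorem rel_not_smallA_galF {N : ℕ} {A : ValuationSubring Kb} {σ : GQ}
    (hσ : σ ∈ A.decompositionSubgroup ℚ) {a : FN N} (ha : ¬ SmallA A a.1) :
    ¬ SmallA A (galF N σ a).1 :=
  fun h => ha ((smallA_coeffMap_iff hσ).1 h)

theorem unram (N m ℓ : ℕ) [NeZero N] [NeZero m] (hℓ : ℓ.Prime) (hℓNm : ¬ ℓ ∣ N * m)
    (A : ValuationSubring Kb) (hA : A.LiesOverPrime ℓ) (τ : GQ) (hτ : τ ∈ A.inertiaSubgroupIn ℚ) :
    rhoV N m τ = 1 := by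
  have hℓN : ¬ ℓ ∣ N := fun h => hℓNm (Dvd.dvd.mul_right h m)
  have hℓm : ¬ ℓ ∣ m := fun h => hℓNm (Dvd.dvd.mul_left h N)
  have hτD := mem_decomposition_of_mem_inertia A hτ
  apply Vm.end_ext
  intro f
  rw [rhoV_mk, Module.End.one_apply, ← sub_eq_zero, ← Vm.mk_div]
  obtain ⟨c, a, b, hc, ha, hb, ha', hb', hf⟩ :=
    exists_normal_form N hℓ A hA ((f : (FN N)ˣ) : FN N) (f : (FN N)ˣ).ne_zero
  have ha0 : a ≠ 0 := rel_ne_zero ha'
  have hb0 : b ≠ 0 := rel_ne_zero hb'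
  obtain ⟨hta, hta'⟩ := cong_inertia N A τ hτ a ha
  obtain ⟨htb, htb'⟩ := cong_inertia N A τ hτ b hb
  have hτa0 : galF N τ a ≠ 0 := (map_ne_zero _).2 ha0
  have hτb0 : galF N τ b ≠ 0 := (map_ne_zero _).2 hb0
  have hτc : τ c ≠ 0 := (map_ne_zero _).2 hc
  refine mk_eq_zero_of_cong N (cc_gen N hℓ hℓN m hℓm) A hA _ (τ c / c) (div_ne_zero hτc hc)
    (galF N τ a * b) (a * galF N τ b) (IntA.mul hta hb) (IntA.mul ha htb)
    (not_smallA_mul ha htb ha' (rel_not_smallA_galF hτD hb')) ?_ ?_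
  · have : (galF N τ a * b).1 - (a * galF N τ b).1 =
        ((galF N τ a).1 - a.1) * b.1 - a.1 * ((galF N τ b).1 - b.1) := by
      show (galF N τ a).1 * b.1 - a.1 * (galF N τ b).1 = _
      ring
    rw [this]
    exact SmallA.sub (SmallA.mul_right hta' hb) (SmallA.mul_left htb' ha)
  · rw [Subgroup.coe_div, Units.val_div_eq_div_val]
    show galF N τ ((f : (FN N)ˣ) : FN N) / ((f : (FN N)ˣ) : FN N) = _
    rw [hf, rel_galF_formula, map_div₀]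
    have hc1 : algebraMap Kb (FN N) c ≠ 0 := by simpa using hc
    have hc2 : algebraMap Kb (FN N) (τ c) ≠ 0 := by simpa using hτc
    field_simp


theorem rel_heckeF_ne_zero (N ℓ : ℕ) [NeZero N] [NeZero ℓ] {b : FN N} (hb : b ≠ 0) :
    heckeF N ℓ b ≠ 0 := by
  intro h0
  have h1 : heckeF N ℓ b * heckeF N ℓ b⁻¹ = 1 := by
    rw [← map_mul, mul_inv_cancel₀ hb, map_one]
  rw [h0, zero_mul] at h1
  exact zero_ne_one h1

theorem rel_heckeF_div (N ℓ : ℕ) [NeZero N] [NeZero ℓ] (a : FN N) {b : FN N} (hb : b ≠ 0) :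
    heckeF N ℓ (a / b) = heckeF N ℓ a / heckeF N ℓ b := by
  rw [eq_div_iff (rel_heckeF_ne_zero N ℓ hb), ← map_mul, div_mul_cancel₀ _ hb]

theorem rel_heckeF_const (N ℓ : ℕ) [NeZero N] [NeZero ℓ] {c : Kb} (hc : c ≠ 0) :
    ∃ c' : Kb, c' ≠ 0 ∧ heckeF N ℓ (algebraMap Kb (FN N) c) = algebraMap Kb (FN N) c' := by
  let _ := algA N ℓ
  exact ⟨c ^ Module.finrank (FN N) (FN (N * ℓ)), pow_ne_zero _ hc, heckeF_algebraMap N ℓ c⟩

theorem es_relation (N m ℓ : ℕ) [NeZero N] [NeZero m] (hℓ : ℓ.Prime) (hℓNm : ¬ ℓ ∣ N * m)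
    (A : ValuationSubring Kb) (hA : A.LiesOverPrime ℓ) (σ : GQ) (hσ : A.IsFrobeniusAt σ ℓ) :
    rhoV N m σ * rhoV N m σ - TV N m ℓ * rhoV N m σ + (ℓ : ZMod m) • 1 = 0 := by
  have hℓN : ¬ ℓ ∣ N := fun h => hℓNm (Dvd.dvd.mul_right h m)
  have hℓm : ¬ ℓ ∣ m := fun h => hℓNm (Dvd.dvd.mul_left h N)
  have : NeZero ℓ := ⟨hℓ.ne_zero⟩
  have hσD := hσ.mem_decompositionSubgroup
  apply Vm.end_ext
  intro f
  rw [LinearMap.add_apply, LinearMap.sub_apply, Module.End.mul_apply, Module.End.mul_apply,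
    LinearMap.smul_apply, Module.End.one_apply, LinearMap.zero_apply, rhoV_mk, rhoV_mk, TV_mk,
    Nat.cast_smul_eq_nsmul, ← Vm.mk_pow, ← Vm.mk_div, ← Vm.mk_mul]
  obtain ⟨c, a, b, hc, ha, hb, ha', hb', hf⟩ :=
    exists_normal_form N hℓ A hA ((f : (FN N)ˣ) : FN N) (f : (FN N)ˣ).ne_zero
  have ha0 : a ≠ 0 := rel_ne_zero ha'
  have hb0 : b ≠ 0 := rel_ne_zero hb'
  obtain ⟨hTa, hTa'⟩ := cong_frob N ℓ hℓ hℓN A hA σ hσ a ha
  obtain ⟨hTb, hTb'⟩ := cong_frob N ℓ hℓ hℓN A hA σ hσ b hb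
  set sa := galF N σ a with hsa
  set sb := galF N σ b with hsb
  set ssa := galF N σ sa with hssa
  set ssb := galF N σ sb with hssb
  have hsa0 : sa ≠ 0 := (map_ne_zero _).2 ha0
  have hsb0 : sb ≠ 0 := (map_ne_zero _).2 hb0
  have hssa0 : ssa ≠ 0 := (map_ne_zero _).2 hsa0
  have hssb0 : ssb ≠ 0 := (map_ne_zero _).2 hsb0
  have hσc : σ c ≠ 0 := (map_ne_zero _).2 hc
  have hσσc : σ (σ c) ≠ 0 := (map_ne_zero _).2 hσc
  obtain ⟨c', hc', hTc⟩ := rel_heckeF_const N ℓ hσc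
  have hIssa : IntA A ssa.1 := rel_intA_galF hσD (rel_intA_galF hσD ha)
  have hIssb : IntA A ssb.1 := rel_intA_galF hσD (rel_intA_galF hσD hb)
  have hNssa : ¬ SmallA A ssa.1 := rel_not_smallA_galF hσD (rel_not_smallA_galF hσD ha')
  have hNssb : ¬ SmallA A ssb.1 := rel_not_smallA_galF hσD (rel_not_smallA_galF hσD hb')
  have hIal : IntA A (a ^ ℓ).1 := IntA.pow ha ℓ
  have hIbl : IntA A (b ^ ℓ).1 := IntA.pow hb ℓ
  have hNal : ¬ SmallA A (a ^ ℓ).1 := not_smallA_pow ha ha' ℓ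
  have hNbl : ¬ SmallA A (b ^ ℓ).1 := not_smallA_pow hb hb' ℓ
  have hNTa : ¬ SmallA A (heckeF N ℓ sa).1 :=
    not_smallA_of_sub hTa' (not_smallA_mul hIal hIssa hNal hNssa)
  refine mk_eq_zero_of_cong N (cc_gen N hℓ hℓN m hℓm) A hA _ (σ (σ c) * c ^ ℓ / c')
    (div_ne_zero (mul_ne_zero hσσc (pow_ne_zero _ hc)) hc')
    (ssa * a ^ ℓ * heckeF N ℓ sb) (ssb * b ^ ℓ * heckeF N ℓ sa)
    (IntA.mul (IntA.mul hIssa hIal) hTb) (IntA.mul (IntA.mul hIssb hIbl) hTa)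
    (not_smallA_mul (IntA.mul hIssb hIbl) hTa (not_smallA_mul hIssb hIbl hNssb hNbl) hNTa) ?_ ?_
  · have : (ssa * a ^ ℓ * heckeF N ℓ sb).1 - (ssb * b ^ ℓ * heckeF N ℓ sa).1 =
        (ssa * a ^ ℓ).1 * ((heckeF N ℓ sb).1 - (b ^ ℓ * ssb).1) -
          (ssb * b ^ ℓ).1 * ((heckeF N ℓ sa).1 - (a ^ ℓ * ssa).1) := by
      show ssa.1 * (a ^ ℓ).1 * (heckeF N ℓ sb).1 - ssb.1 * (b ^ ℓ).1 * (heckeF N ℓ sa).1 =
        ssa.1 * (a ^ ℓ).1 * ((heckeF N ℓ sb).1 - (b ^ ℓ).1 * ssb.1) -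
          ssb.1 * (b ^ ℓ).1 * ((heckeF N ℓ sa).1 - (a ^ ℓ).1 * ssa.1)
      ring
    rw [this]
    exact SmallA.sub (SmallA.mul_left hTb' (IntA.mul hIssa hIal))
      (SmallA.mul_left hTa' (IntA.mul hIssb hIbl))
  · rw [Subgroup.coe_mul, Units.val_mul, Subgroup.coe_div, Units.val_div_eq_div_val,
      Subgroup.coe_pow, Units.val_pow_eq_pow_val]
    show galF N σ (galF N σ ((f : (FN N)ˣ) : FN N)) /
      heckeF N ℓ (galF N σ ((f : (FN N)ˣ) : FN N)) * ((f : (FN N)ˣ) : FN N) ^ ℓ = _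
    rw [hf, rel_galF_formula, rel_galF_formula, map_mul, rel_heckeF_div N ℓ _ hsb0, hTc,
      map_div₀, map_mul, map_pow, ← hsa, ← hsb, ← hssa, ← hssb, mul_pow, div_pow]
    have hc1 : algebraMap Kb (FN N) c ≠ 0 := by simpa using hc
    have hc2 : algebraMap Kb (FN N) c' ≠ 0 := by simpa using hc'
    have hTa0 := rel_heckeF_ne_zero N ℓ hsa0
    have hTb0 := rel_heckeF_ne_zero N ℓ hsb0
    field_simp

end Fermat.Agent.GES
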