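import Fermat.Agent.GES.StarFam
import Fermat.Agent.GES.NormProd
import Fermat.Agent.GES.Fin

set_option autoImplicit false

/-!
# GES: the `q`-expansion of the multiplicative Hecke operator

`(T_ℓ f)(q) = f(q^ℓ) ∏_{i mod ℓ} f(ζ^i q^{1/ℓ})`, written in the variable `t = q^{1/ℓ}`.
-/

noncomputable section

open UpperHalfPlane ModularForm CongruenceSubgroup
open scoped MatrixGroups

namespace Fermat.Agent.GES

open AlgebraicCurve ModularCurve
open Fermat.Agent.S24 (Kb FN iotaK theta cuspChart jF)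

/-- **(★)** -/
theorem star (N ℓ : ℕ) [NeZero N] [NeZero ℓ] (hℓ : ℓ.Prime) (hℓN : ¬ ℓ ∣ N) (ζ : Kbˣ)
    (hζ : IsPrimitiveRoot ζ ℓ) (f : FN N) :
    qExpand Kb ℓ (heckeF N ℓ f : LaurentSeries Kb) =
      qExpand Kb ℓ (qExpand Kb ℓ (f : LaurentSeries Kb)) *
        ∏ i : Fin ℓ, S28.twist (ζ ^ (i : ℕ)) (f : LaurentSeries Kb) := by
  obtain ⟨g, hgN, hg⟩ := exists_g0 N ℓ ((Nat.Prime.coprime_iff_not_dvd hℓ).2 hℓN)
  obtain ⟨u0, hu0⟩ := IsAlgClosed.exists_pow_nat_eq (iotaK (ζ : Kb))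
    (Nat.pos_of_ne_zero (NeZero.ne N))
  have hu00 : u0 ≠ 0 := by
    rintro rfl
    rw [zero_pow (NeZero.ne N)] at hu0
    exact ζ.ne_zero (iotaK.injective (by rw [← hu0, map_zero]))
  set u : ℂˣ := Units.mk0 u0 hu00 with hu
  have huN : u ^ N = Units.map (iotaK : Kb →* ℂ) ζ := Units.ext (by simpa [hu] using hu0)
  have hprim : IsPrimitiveRoot (u ^ N) ℓ := by
    rw [huN]
    exact hζ.map_of_injective (Units.map_injective iotaK.injective)
  have hu1 : u ^ (N * ℓ) = 1 := by rw [pow_mul, hprim.pow_eq_one]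
  let _ := algA N ℓ
  have := finiteDimensional_algA N ℓ
  have key := norm_eq_prod_of_embeddings (F := FN N) (E := FN (N * ℓ)) (tauFam N ℓ g u)
    (tauFam_injective N ℓ hℓ.two_le g u hprim hg)
    (fun q q' r => (tauFam_alpha N ℓ g hgN u hu1 q r).trans (tauFam_alpha N ℓ g hgN u hu1 q' r).symm)
    (by rw [Fintype.card_option, Fintype.card_fin, finrank_algA N ℓ hℓ hℓN])
    (heckeBetaBar Kb N ℓ f) none
  rw [Fintype.prod_option, tauFam_beta_none] at key
  simp only [tauFam_beta_some N ℓ g u hg] at key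
  have hL : tauFam N ℓ g u none (algebraMap (FN N) (FN (N * ℓ))
      (Algebra.norm (FN N) (heckeBetaBar Kb N ℓ f))) =
      qExpand ℂ N (qExpand ℂ ℓ (coeffMap iotaK (heckeF N ℓ f : LaurentSeries Kb))) := by
    have h1 : Algebra.norm (FN N) (heckeBetaBar Kb N ℓ f) = heckeF N ℓ f := rfl
    have h2 : ∀ x : FN N, tauFam N ℓ g u none (algebraMap (FN N) (FN (N * ℓ)) x) =
        stdEmb (N * ℓ) (heckeAlphaBar Kb N ℓ x) := fun x => rfl
    rw [← qExpand_mul', h1, h2, stdEmb_apply, coe_heckeAlphaBar]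
  rw [hL, ← map_prod, ← map_mul] at key
  have key2 := qExpand_injective N key
  apply Fermat.Agent.S24.phi_coeffMap_injective iotaK iotaK.injective
  rw [coeffMap_qExpand, key2, map_mul, map_prod, coeffMap_qExpand, coeffMap_qExpand]
  congr 1
  refine Finset.prod_congr rfl fun i _ => ?_
  rw [S28.coeffMap_twist, huN, map_pow]

end Fermat.Agent.GES
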