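import Fermat.Agent.S28.Series

set_option autoImplicit false

/-!
# GES task S4-Twist : elementary lemmas on `S28.twist u : ψ(q) ↦ ψ(u q)` and `qExpand n : ψ(q) ↦ ψ(q^n)`

All by `ext k`, `S28.twist_coeff`, `qExpand_coeff_mul`, `qExpand_coeff_of_not_dvd` (case split on `(n:ℤ) ∣ k`).
-/

noncomputable section

namespace Fermat.Agent.GES

open ModularCurve Fermat.Agent.S28

variable {A : Type*} [CommRing A]

theorem twist_one' (x : LaurentSeries A) : twist (1 : Aˣ) x = x := by
  ext k
  rw [twist_coeff, one_zpow, Units.val_one, one_mul]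

theorem twist_twist (u v : Aˣ) (x : LaurentSeries A) : twist u (twist v x) = twist (u * v) x := by
  ext k
  rw [twist_coeff, twist_coeff, twist_coeff, mul_zpow, Units.val_mul, mul_assoc]

theorem twist_qExpand (u : Aˣ) (n : ℕ) [NeZero n] (x : LaurentSeries A) :
    twist u (qExpand A n x) = qExpand A n (twist (u ^ n) x) := by
  ext k
  by_cases hk : (n : ℤ) ∣ k
  · obtain ⟨j, rfl⟩ := hk
    rw [twist_coeff, qExpand_coeff_mul, qExpand_coeff_mul, twist_coeff, zpow_mul, zpow_natCast]
  · rw [twist_coeff, qExpand_coeff_of_not_dvd _ _ hk, qExpand_coeff_of_not_dvd _ _ hk, mul_zero]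

theorem twist_qExpand_of_pow_eq_one (u : Aˣ) (n : ℕ) [NeZero n] (hu : u ^ n = 1)
    (x : LaurentSeries A) : twist u (qExpand A n x) = qExpand A n x := by
  rw [twist_qExpand, hu, twist_one']

theorem qExpand_mul' (m n : ℕ) [NeZero m] [NeZero n] (x : LaurentSeries A) :
    qExpand A (m * n) x = qExpand A m (qExpand A n x) :=
  (qExpand_qExpand n m x).symm

end Fermat.Agent.GES
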