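import Fermat.Agent.GES.EmbG0
import Fermat.Agent.GES.TwistC

set_option autoImplicit false

/-!
# GES task S5-StarFam : the `ℓ + 1` embeddings of `F_{Nℓ}` over `F_N` in `ℂ((s))`, `s = q^{1/(Nℓ)}`

`none ↦ stdEmb`, `some i ↦ (s ↦ u^i s) ∘ theta g`, where `g` is the matrix of `exists_g0` and `u^{Nℓ} = 1`.
-/

noncomputable section

open UpperHalfPlane ModularForm CongruenceSubgroup
open scoped MatrixGroups

namespace Fermat.Agent.GES

open AlgebraicCurve ModularCurve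
open Fermat.Agent.S24 (Kb FN iotaK theta cuspChart jF)

variable (N ℓ : ℕ) [NeZero N] [NeZero ℓ]

/-- the family of embeddings. -/
def tauFam (g : SL(2, ℤ)) (u : ℂˣ) : Option (Fin ℓ) → (FN (N * ℓ) →+* LaurentSeries ℂ)
  | none => stdEmb (N * ℓ)
  | some i => (S28.twist (u ^ (i : ℕ))).comp (theta (N * ℓ) (cuspChart (N * ℓ)) g)

/-- `theta_alpha`, `stdEmb_apply`, `twist_qExpand_of_pow_eq_one`. -/
theorem tauFam_alpha (g : SL(2, ℤ)) (hg : g ∈ Gamma0 N) (u : ℂˣ) (hu : u ^ (N * ℓ) = 1)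
    (q : Option (Fin ℓ)) (r : FN N) :
    tauFam N ℓ g u q (heckeAlphaBar Kb N ℓ r) = stdEmb (N * ℓ) (heckeAlphaBar Kb N ℓ r) := by
  cases q with
  | none => rfl
  | some i =>
    show S28.twist (u ^ (i : ℕ)) (theta (N * ℓ) (cuspChart (N * ℓ)) g (heckeAlphaBar Kb N ℓ r)) = _
    rw [theta_alpha N ℓ g hg r, stdEmb_apply]
    apply twist_qExpand_of_pow_eq_one
    rw [← pow_mul, mul_comm, pow_mul, hu, one_pow]

/-- `twist_qExpand`. -/
theorem tauFam_beta_some (g : SL(2, ℤ)) (u : ℂˣ)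
    (hg : ∀ f : FN N, theta (N * ℓ) (cuspChart (N * ℓ)) g (heckeBetaBar Kb N ℓ f) =
        qExpand ℂ N (coeffMap iotaK (f : LaurentSeries Kb)))
    (i : Fin ℓ) (f : FN N) :
    tauFam N ℓ g u (some i) (heckeBetaBar Kb N ℓ f) =
      qExpand ℂ N (S28.twist ((u ^ N) ^ (i : ℕ)) (coeffMap iotaK (f : LaurentSeries Kb))) := by
  show S28.twist (u ^ (i : ℕ)) (theta (N * ℓ) (cuspChart (N * ℓ)) g (heckeBetaBar Kb N ℓ f)) = _
  rw [hg f, twist_qExpand, pow_right_comm]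

theorem tauFam_beta_none (g : SL(2, ℤ)) (u : ℂˣ) (f : FN N) :
    tauFam N ℓ g u none (heckeBetaBar Kb N ℓ f) =
      qExpand ℂ N (qExpand ℂ ℓ (qExpand ℂ ℓ (coeffMap iotaK (f : LaurentSeries Kb)))) := by
  show stdEmb (N * ℓ) (heckeBetaBar Kb N ℓ f) = _
  rw [stdEmb_apply, coe_heckeBetaBar, coeffMap_qExpand, qExpand_mul']

/-- Evaluate at `heckeBetaBar (jF N)` and look at the coefficient of `s^{-N}`:
`coeffMap iotaK (jF N) = jqModC ℂ = q⁻¹ + ⋯` (`S24.degree_Jser_one`, `S24.phi_coeffMap_jqModC`,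
`ModularCurve.coeff_jqModC_neg_one`); for `some i` the coefficient is `(u^N)^{-i}` (`tauFam_beta_some`,
`qExpand_coeff_mul`, `S28.twist_coeff`), for `none` it is `0` (`qExpand_coeff_of_not_dvd`, as `ℓ ∤ -1`);
`IsPrimitiveRoot.pow_inj`. -/
theorem tauFam_injective (hℓ : 2 ≤ ℓ) (g : SL(2, ℤ)) (u : ℂˣ) (hu : IsPrimitiveRoot (u ^ N) ℓ)
    (hg : ∀ f : FN N, theta (N * ℓ) (cuspChart (N * ℓ)) g (heckeBetaBar Kb N ℓ f) =
        qExpand ℂ N (coeffMap iotaK (f : LaurentSeries Kb))) :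
    Function.Injective (tauFam N ℓ g u) := by
  have hj : coeffMap iotaK ((jF N : FN N) : LaurentSeries Kb) = jqModC ℂ := by
    show coeffMap iotaK (S24.Jser 1) = _
    rw [S24.degree_Jser_one, S24.phi_coeffMap_jqModC]
  have hsome : ∀ i : Fin ℓ, (tauFam N ℓ g u (some i) (heckeBetaBar Kb N ℓ (jF N))).coeff
      ((N : ℤ) * (-1)) = ((((u ^ N) ^ (i : ℕ)) ^ (-1 : ℤ) : ℂˣ) : ℂ) := by
    intro i
    rw [tauFam_beta_some N ℓ g u hg, hj, qExpand_coeff_mul, S28.twist_coeff,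
      coeff_jqModC_neg_one, mul_one]
  have hnone : (tauFam N ℓ g u none (heckeBetaBar Kb N ℓ (jF N))).coeff ((N : ℤ) * (-1)) = 0 := by
    rw [tauFam_beta_none, hj, qExpand_coeff_mul, qExpand_coeff_of_not_dvd]
    intro hd
    have h1 : (ℓ : ℤ) ∣ 1 := (dvd_neg.mp hd)
    have h2 := Int.le_of_dvd one_pos h1
    omega
  intro a b hab
  have hab' := congrArg (fun φ : FN (N * ℓ) →+* LaurentSeries ℂ =>
    (φ (heckeBetaBar Kb N ℓ (jF N))).coeff ((N : ℤ) * (-1))) hab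
  cases a with
  | none =>
    cases b with
    | none => rfl
    | some i =>
      rw [hnone, hsome] at hab'
      exact absurd hab'.symm (Units.ne_zero _)
  | some i =>
    cases b with
    | none =>
      rw [hnone, hsome] at hab'
      exact absurd hab' (Units.ne_zero _)
    | some k =>
      rw [hsome, hsome] at hab'
      have h1 := Units.ext hab'
      rw [zpow_neg_one, zpow_neg_one, inv_inj] at h1
      have h2 := hu.pow_inj i.2 k.2 h1
      rw [Fin.ext h2]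

end Fermat.Agent.GES
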