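import Fermat.Agent.GES.Main
import Fermat.Agent.S30.Defs

set_option autoImplicit false

/-!
# GES: from the analytic uniformisation `κ` (chapter NV) to `S31.KummerSystem` and `S30.IsTate`

`KappaData N p` is EXACTLY what chapter NV still has to provide on top of chapter GES:
a lattice `H` with Hecke operators `T ℓ` linked to `S₂(Γ₀(N))`, and Hecke equivariant maps
`κ n : H → V_{p^n}(N)` with kernel in `p^n H`.

* `KappaData.toKummerSystem : S31.KummerSystem N p`   (enough for S29, S42, S31);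
* `KappaData.isTate` : if moreover the image of `κ n` is Galois stable and the `κ n` are compatible with the transition maps
  `[f] ↦ [f]`, then `S30.IsTate`   (S30).
-/

noncomputable section

namespace Fermat.Agent.GES

open Fermat.Agent.S24 (Kb FN iotaK)

/-- the input from chapter NV. -/
structure KappaData (N p : ℕ) [NeZero N] [NeZero p] : Type 1 where
  H : Type
  [instH : AddCommGroup H]
  [instFree : Module.Free ℤ H]
  [instFinite : Module.Finite ℤ H]
  T : ℕ → Module.End ℤ H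
  link : ∀ P : FreeAlgebra ℤ ℕ, FreeAlgebra.lift ℤ T P = 0 →
    FreeAlgebra.lift ℤ (S31.heckeFam N) P = 0
  κ : ∀ n : ℕ, H →+ VN N (p ^ n)
  κ_ker : ∀ (n : ℕ) (h : H), κ n h = 0 → ∃ h' : H, h = (p ^ n) • h'
  κ_T : ∀ (n ℓ : ℕ), ℓ.Prime → ¬ ℓ ∣ N * p → ∀ h : H, κ n (T ℓ h) = TV N (p ^ n) ℓ (κ n h)

attribute [instance] KappaData.instH KappaData.instFree KappaData.instFinite

/-- `rhoV` as a homomorphism to additive endomorphisms. -/
def actV (N m : ℕ) : GQ →* AddMonoid.End (VN N m) where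
  toFun σ := (rhoV N m σ).toAddMonoidHom
  map_one' := by
    rw [map_one]
    rfl
  map_mul' σ τ := by
    rw [map_mul]
    rfl

@[simp] theorem actV_apply (N m : ℕ) (σ : GQ) (w : VN N m) : actV N m σ w = rhoV N m σ w := rfl

theorem not_dvd_mul_pow {N p ℓ : ℕ} (hℓ : ℓ.Prime) (h : ¬ ℓ ∣ N * p) (n : ℕ) :
    ¬ ℓ ∣ N * p ^ n := by
  intro h1
  rcases (Nat.Prime.dvd_mul hℓ).1 h1 with h2 | h2
  · exact h (Dvd.dvd.mul_right h2 p)
  · exact h (Dvd.dvd.mul_left (hℓ.dvd_of_dvd_pow h2) N)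

/-- the Kummer system attached to `κ`. -/
def KappaData.toKummerSystem {N p : ℕ} [NeZero N] [NeZero p] (D : KappaData N p) :
    S31.KummerSystem N p where
  H := D.H
  T := D.T
  link := D.link
  W := fun n => VN N (p ^ n)
  instW := fun n => inferInstanceAs (AddCommGroup (VN N (p ^ n)))
  tors := fun n w => Vm.nsmul_eq_zero (K := Kb) (F := FN N) (m := p ^ n) w
  act := fun n => actV N (p ^ n)
  smooth := fun n w => exists_level_V N (p ^ n) w
  TW := fun n ℓ => (TV N (p ^ n) ℓ).toAddMonoidHom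
  comm := fun n ℓ _ _ σ w => by
    have h := congrArg (fun f : Module.End (ZMod (p ^ n)) (VN N (p ^ n)) => f w)
      (TV_comm_rhoV N (p ^ n) ℓ σ)
    exact h
  es := fun n ℓ hℓ hℓNp A hA σ hσ w => by
    have h := congrArg (fun f : Module.End (ZMod (p ^ n)) (VN N (p ^ n)) => f w)
      (es_relation N (p ^ n) ℓ hℓ (not_dvd_mul_pow hℓ hℓNp n) A hA σ hσ)
    simp only [LinearMap.add_apply, LinearMap.sub_apply, Module.End.mul_apply,
      LinearMap.smul_apply, Module.End.one_apply, LinearMap.zero_apply,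
      Nat.cast_smul_eq_nsmul] at h
    show rhoV N (p ^ n) σ (rhoV N (p ^ n) σ w) + ℓ • w = TV N (p ^ n) ℓ (rhoV N (p ^ n) σ w)
    rw [← sub_eq_zero, ← h]
    abel
  unram := fun n ℓ hℓ hℓNp A hA σ hσ w => by
    show rhoV N (p ^ n) σ w = w
    rw [unram N (p ^ n) ℓ hℓ (not_dvd_mul_pow hℓ hℓNp n) A hA σ hσ, Module.End.one_apply]
  κ := D.κ
  κ_ker := D.κ_ker
  κ_T := D.κ_T

/-- the extra properties needed for S30. -/
theorem KappaData.isTate {N p : ℕ} [NeZero N] [NeZero p] (D : KappaData N p)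
    (stab : ∀ (n : ℕ) (σ : GQ) (h : D.H), ∃ h' : D.H, rhoV N (p ^ n) σ (D.κ n h) = D.κ n h')
    (trans : ∀ (n : ℕ) (h : D.H),
      Vm.trans Kb (FN N) (pow_dvd_pow p (Nat.le_succ n)) (D.κ (n + 1) h) = D.κ n h) :
    S30.IsTate D.toKummerSystem where
  stab := stab
  compat n σ h h' hh := by
    have h1 : rhoV N (p ^ (n + 1)) σ (D.κ (n + 1) h) = D.κ (n + 1) h' := hh
    show rhoV N (p ^ n) σ (D.κ n h) = D.κ n h'
    rw [← trans n h, ← trans n h', ← trans_rhoV, h1]

end Fermat.Agent.GES
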